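import Fermat.Agent.LangWeilAll.Count
import Fermat.Agent.AxFiniteFields.Ostrowski
import Mathlib.RingTheory.Polynomial.Resultant.Basic
import Mathlib.RingTheory.Polynomial.GaussLemma
import Mathlib.RingTheory.Polynomial.UniqueFactorization

/-!
# The theorem of Lang and Weil for hypersurfaces

Over a field large against the degree an absolutely irreducible polynomial is brought to normal
position by a change of coordinates, as some direction is off the top form and not killed by the
differential, and some fibre is squarefree; small fields are covered by the trivial bound.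
-/

set_option autoImplicit false
set_option linter.style.haveILetI false

noncomputable section

namespace FA.LangWeilAll

open MvPolynomial

section Shear

variable {R S : Type*} [CommRing R] [CommRing S] {r : ℕ}

/-- The substitution making `v` the direction of the first coordinate. -/
def shearMap (v : Fin (r + 1) → R) (j : Fin (r + 1)) (c : Fin r → R) :
    Fin (r + 1) → MvPolynomial (Fin (r + 1)) R :=
  fun i => C (v i) * X 0 +
    Fin.insertNth (α := fun _ => MvPolynomial (Fin (r + 1)) R) j 0 (fun m => X m.succ + C (c m)) i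

/-- Its inverse. -/
def unshearMap (v : Fin (r + 1) → R) (j : Fin (r + 1)) (w : R) (c : Fin r → R) :
    Fin (r + 1) → MvPolynomial (Fin (r + 1)) R :=
  Fin.cons (C w * X j) fun m =>
    X (j.succAbove m) - C (v (j.succAbove m)) * (C w * X j) - C (c m)

/-- The change of coordinates. -/
def shear (v : Fin (r + 1) → R) (j : Fin (r + 1)) (w : R) (hw : v j * w = 1) (c : Fin r → R) :
    MvPolynomial (Fin (r + 1)) R ≃ₐ[R] MvPolynomial (Fin (r + 1)) R :=
  AlgEquiv.ofAlgHom (aeval (shearMap v j c)) (aeval (unshearMap v j w c))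
    (algHom_ext (Fin.cases
      (by
        have hw' : (C w : MvPolynomial (Fin (r + 1)) R) * C (v j) = 1 := by
          rw [← C_mul, mul_comm, hw, C_1]
        simp [unshearMap, shearMap, ← mul_assoc, hw'])
      fun m => by
        have hw' : (C w : MvPolynomial (Fin (r + 1)) R) * C (v j) = 1 := by
          rw [← C_mul, mul_comm, hw, C_1]
        simp [unshearMap, shearMap, ← mul_assoc, mul_assoc _ (C w) (C (v j)), hw']))
    (algHom_ext (Fin.succAboveCases j
      (by
        have hw' : (C (v j) : MvPolynomial (Fin (r + 1)) R) * C w = 1 := by rw [← C_mul, hw, C_1]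
        simp [unshearMap, shearMap, ← mul_assoc, hw'])
      fun m => by simp [unshearMap, shearMap]))

theorem shear_apply (v : Fin (r + 1) → R) (j : Fin (r + 1)) (w : R) (hw : v j * w = 1)
    (c : Fin r → R) (f : MvPolynomial (Fin (r + 1)) R) :
    shear v j w hw c f = aeval (shearMap v j c) f := rfl

theorem totalDegree_shear_le [IsDomain R] (v : Fin (r + 1) → R) (j : Fin (r + 1)) (w : R)
    (hw : v j * w = 1) (c : Fin r → R) (f : MvPolynomial (Fin (r + 1)) R) :
    (shear v j w hw c f).totalDegree ≤ f.totalDegree := by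
  refine totalDegree_aeval_le _ (fun i => ?_) f
  refine (totalDegree_add _ _).trans (max_le ((totalDegree_mul _ _).trans (by simp)) ?_)
  refine Fin.succAboveCases j ?_ (fun m => ?_) i
  · simp
  · rw [Fin.insertNth_apply_succAbove]
    exact (totalDegree_add _ _).trans (max_le (by simp) (by simp))

theorem map_shearMap (φ : R →+* S) (v : Fin (r + 1) → R) (j : Fin (r + 1)) (c : Fin r → R)
    (i : Fin (r + 1)) :
    (shearMap v j c i).map φ = shearMap (φ ∘ v) j (φ ∘ c) i := by
  refine Fin.succAboveCases j ?_ (fun m => ?_) i <;> simp [shearMap]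

theorem map_shear (φ : R →+* S) (v : Fin (r + 1) → R) (j : Fin (r + 1)) (w : R)
    (hw : v j * w = 1) (c : Fin r → R) (f : MvPolynomial (Fin (r + 1)) R) :
    (shear v j w hw c f).map φ =
      shear (φ ∘ v) j (φ w) (by rw [Function.comp_apply, ← map_mul, hw, map_one]) (φ ∘ c)
        (f.map φ) := by
  rw [shear_apply, map_aeval_apply, shear_apply]
  exact congrArg (fun g => aeval g (f.map φ)) (funext fun i => map_shearMap φ v j c i)

theorem exists_pointEquiv_shear (v : Fin (r + 1) → R) (j : Fin (r + 1)) (w : R)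
    (hw : v j * w = 1) (c : Fin r → R) :
    ∃ T : (Fin (r + 1) → R) ≃ (Fin (r + 1) → R), ∀ (f : MvPolynomial (Fin (r + 1)) R) (y),
      eval (T y) f = eval y (shear v j w hw c f) := by
  have h1 : ∀ i, aeval (unshearMap v j w c) (shearMap v j c i) = X i := fun i => by
    rw [← aeval_X (R := R) (shearMap v j c) i, ← shear_apply v j w hw c]
    exact (shear v j w hw c).symm_apply_apply (X i)
  have h2 : ∀ i, aeval (shearMap v j c) (unshearMap v j w c i) = X i := fun i => by
    rw [← aeval_X (R := R) (unshearMap v j w c) i]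
    exact (shear v j w hw c).apply_symm_apply (X i)
  obtain ⟨T, hT⟩ : ∃ T : (Fin (r + 1) → R) → Fin (r + 1) → R,
      ∀ y i, T y i = eval y (shearMap v j c i) := ⟨_, fun _ _ => rfl⟩
  obtain ⟨T', hT'⟩ : ∃ T' : (Fin (r + 1) → R) → Fin (r + 1) → R,
      ∀ x i, T' x i = eval x (unshearMap v j w c i) := ⟨_, fun _ _ => rfl⟩
  have h3 : ∀ y, T' (T y) = y := fun y => funext fun i => by
    rw [hT', funext (hT y), ← eval_aeval_apply, h2, eval_X]
  have h4 : ∀ x, T (T' x) = x := fun x => funext fun i => by
    rw [hT, funext (hT' x), ← eval_aeval_apply, h1, eval_X]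
  refine ⟨⟨T, T', h3, h4⟩, fun f y => ?_⟩
  rw [show (⟨T, T', h3, h4⟩ : (Fin (r + 1) → R) ≃ (Fin (r + 1) → R)) y = T y from rfl,
    funext (hT y), shear_apply, eval_aeval_apply]

theorem natCard_zeros_shear (v : Fin (r + 1) → R) (j : Fin (r + 1)) (w : R)
    (hw : v j * w = 1) (c : Fin r → R) (f : MvPolynomial (Fin (r + 1)) R) :
    Nat.card {y : Fin (r + 1) → R // eval y (shear v j w hw c f) = 0} =
      Nat.card {x : Fin (r + 1) → R // eval x f = 0} := by
  obtain ⟨T, hT⟩ := exists_pointEquiv_shear v j w hw c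
  exact Nat.card_congr (T.subtypeEquiv fun y => by rw [hT])

theorem map_eval_finSuccEquiv (z : Fin r → R) (g : MvPolynomial (Fin (r + 1)) R) :
    (finSuccEquiv R r g).map (eval z) =
      aeval (Fin.cons Polynomial.X fun m => Polynomial.C (z m) : Fin (r + 1) → Polynomial R) g := by
  induction g using MvPolynomial.induction_on with
  | C a => simp [finSuccEquiv_apply]
  | add u v hu hv => simp only [map_add, Polynomial.map_add, hu, hv]
  | mul_X u i hu =>
    simp only [map_mul, aeval_X, Polynomial.map_mul, hu]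
    refine congrArg _ ?_
    refine Fin.cases ?_ (fun m => ?_) i <;> simp [finSuccEquiv_X_zero, finSuccEquiv_X_succ]

/-- The fibres of the sheared polynomial are restrictions to lines. -/
theorem map_eval_shear (v : Fin (r + 1) → R) (j : Fin (r + 1)) (w : R)
    (hw : v j * w = 1) (c z : Fin r → R) (f : MvPolynomial (Fin (r + 1)) R) :
    (finSuccEquiv R r (shear v j w hw c f)).map (eval z) =
      aeval (fun i => Polynomial.C (v i) * Polynomial.X +
        Polynomial.C (Fin.insertNth (α := fun _ => R) j 0 (z + c) i)) f := by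
  rw [map_eval_finSuccEquiv, shear_apply, ← AlgHom.comp_apply, comp_aeval]
  refine congrArg (fun g => aeval g f) (funext (Fin.succAboveCases j ?_ fun m => ?_)) <;>
    simp [shearMap]

theorem derivative_finSuccEquiv (g : MvPolynomial (Fin (r + 1)) R) :
    Polynomial.derivative (finSuccEquiv R r g) = finSuccEquiv R r (pderiv 0 g) := by
  induction g using MvPolynomial.induction_on with
  | C a => simp [finSuccEquiv_apply]
  | add u v hu hv => simp only [map_add, hu, hv]
  | mul_X u i hu =>
    simp only [map_mul, Polynomial.derivative_mul, pderiv_mul, map_add, hu]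
    refine congrArg _ ?_
    refine congrArg _ ?_
    refine Fin.cases ?_ (fun m => ?_) i <;>
      simp [finSuccEquiv_X_zero, finSuccEquiv_X_succ]

theorem pderiv_aeval_apply {σ τ : Type*} [Fintype σ] (g : σ → MvPolynomial τ R) (t : τ)
    (f : MvPolynomial σ R) :
    pderiv t (aeval g f) = ∑ i, aeval g (pderiv i f) * pderiv t (g i) := by
  classical
  induction f using MvPolynomial.induction_on with
  | C a => simp
  | add u v hu hv => simp only [map_add, hu, hv, add_mul, Finset.sum_add_distrib]
  | mul_X u l hu =>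
    simp only [map_mul, aeval_X, pderiv_mul, hu, Finset.sum_mul, map_add, add_mul,
      Finset.sum_add_distrib]
    refine congrArg₂ _ (Finset.sum_congr rfl fun i _ => by ring) ?_
    rw [Finset.sum_eq_single l]
    · simp
    · exact fun i _ hi => by rw [pderiv_X_of_ne (Ne.symm hi), map_zero, mul_zero, zero_mul]
    · simp

theorem pderiv_shear (v : Fin (r + 1) → R) (j : Fin (r + 1)) (w : R)
    (hw : v j * w = 1) (c : Fin r → R) (f : MvPolynomial (Fin (r + 1)) R) :
    pderiv 0 (shear v j w hw c f) = shear v j w hw c (∑ i, C (v i) * pderiv i f) := by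
  rw [shear_apply, pderiv_aeval_apply, shear_apply, map_sum]
  refine Finset.sum_congr rfl fun i _ => ?_
  rw [map_mul, aeval_C, algebraMap_eq, mul_comm (C (v i))]
  refine congrArg _ ?_
  refine Fin.succAboveCases j ?_ (fun m => ?_) i <;>
    simp [shearMap, pderiv_X_of_ne, Fin.succ_ne_zero]

end Shear

variable {k : Type*} [Field k] {r : ℕ}

theorem natCard_zeros_mul_le [Finite k] {n : ℕ} {g : MvPolynomial (Fin n) k} (hg : g ≠ 0) :
    Nat.card {x : Fin n → k // eval x g = 0} * Nat.card k ≤ g.totalDegree * Nat.card k ^ n :=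
  card_eval_zero_mul_le (RingHom.id k) hg

theorem exists_eval_ne_zero [Finite k] {n : ℕ} {g : MvPolynomial (Fin n) k} (hg : g ≠ 0)
    (hd : g.totalDegree < Nat.card k) : ∃ x, eval x g ≠ 0 := by
  by_contra hno
  push Not at hno
  have h := natCard_zeros_mul_le hg
  rw [Nat.card_congr (Equiv.subtypeUnivEquiv hno), Nat.card_fun, Nat.card_fin, mul_comm] at h
  have hq : 0 < Nat.card k ^ n := Nat.pow_pos Nat.card_pos
  exact absurd (Nat.le_of_mul_le_mul_right h hq) (not_le.2 hd)

theorem homogeneousComponent_totalDegree_ne_zero {σ : Type*} {f : MvPolynomial σ k} (hf : f ≠ 0) :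
    homogeneousComponent f.totalDegree f ≠ 0 := by
  obtain ⟨s, hs, he⟩ :=
    Finset.exists_mem_eq_sup f.support (support_nonempty.2 hf) fun s => s.sum fun _ n => n
  intro e
  have h := congrArg (coeff s) e
  rw [coeff_homogeneousComponent, coeff_zero, if_pos] at h
  · exact mem_support_iff.1 hs h
  · rw [Finsupp.degree_apply]; exact he.symm

/-- An irreducible polynomial over a finite field has a nonzero partial derivative. -/
theorem exists_pderiv_ne_zero [Finite k] {σ : Type*} {f : MvPolynomial σ k} (hf : Irreducible f) :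
    ∃ i, pderiv i f ≠ 0 := by
  classical
  by_contra hno
  push Not at hno
  obtain ⟨p, hp⟩ := CharP.exists k
  haveI := hp
  haveI : Fact p.Prime := ⟨CharP.char_is_prime k p⟩
  have hdvd : ∀ s ∈ f.support, ∀ i, p ∣ s i := fun s hs i => by
    rcases Nat.eq_zero_or_pos (s i) with h | h
    · simp [h]
    have h1 := congrArg (coeff (s - Finsupp.single i 1)) (hno i)
    rw [coeff_pderiv, coeff_zero, tsub_add_cancel_of_le (Finsupp.single_le_iff.2 h),
      mul_eq_zero] at h1
    refine (CharP.cast_eq_zero_iff k p _).1 ?_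
    have h2 := h1.resolve_left (mem_support_iff.1 hs)
    rw [Finsupp.tsub_apply, Finsupp.single_eq_same] at h2
    rw [← h2, ← Nat.cast_add_one, Nat.sub_add_cancel h]
  choose root hroot using Finite.injective_iff_surjective.1 (frobenius_inj k p)
  obtain ⟨h, hh⟩ : ∃ h : MvPolynomial σ k, h = ∑ s ∈ f.support,
      monomial (Finsupp.mapRange (· / p) (Nat.zero_div p) s) (root (f.coeff s)) := ⟨_, rfl⟩
  have hpow : f = h ^ p := by
    rw [hh, sum_pow_char p]
    conv_lhs => rw [f.as_sum]
    refine Finset.sum_congr rfl fun s hs => ?_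
    rw [monomial_pow]
    refine congrArg₂ (fun a b => monomial a b) (Finsupp.ext fun i => ?_) (hroot _).symm
    simp [Nat.mul_div_cancel' (hdvd s hs i)]
  have hp2 : 2 ≤ p := (Fact.out : p.Prime).two_le
  rw [hpow, show p = p - 1 + 1 by omega, pow_succ] at hf
  rcases hf.isUnit_or_isUnit rfl with hu | hu
  · exact hf.not_isUnit (hu.mul ((isUnit_pow_iff (by omega)).1 hu))
  · exact hf.not_isUnit ((hu.pow _).mul hu)

/-- A good direction. -/
theorem exists_direction [Finite k] {f : MvPolynomial (Fin (r + 1)) k} (hf : Irreducible f)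
    (hq : f.totalDegree + 1 < Nat.card k) :
    ∃ v : Fin (r + 1) → k, v ≠ 0 ∧ eval v (homogeneousComponent f.totalDegree f) ≠ 0 ∧
      ∑ i, C (v i) * pderiv i f ≠ 0 := by
  classical
  obtain ⟨i₀, hi₀⟩ := exists_pderiv_ne_zero hf
  obtain ⟨s₀, hs₀⟩ := exists_coeff_ne_zero hi₀
  obtain ⟨L, hL⟩ : ∃ L : MvPolynomial (Fin (r + 1)) k,
      L = ∑ i, C ((pderiv i f).coeff s₀) * X i := ⟨_, rfl⟩
  have hL0 : L ≠ 0 := fun e => hs₀ (by
    have := congrArg (coeff (Finsupp.single i₀ 1)) (hL.symm.trans e)
    simpa [coeff_sum, coeff_X, Finsupp.single_left_inj] using this)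
  have hLd : L.totalDegree ≤ 1 := hL ▸ (totalDegree_finsetSum _ _).trans
    (Finset.sup_le fun i _ => (totalDegree_mul _ _).trans (by simp))
  obtain ⟨v, hv⟩ := exists_eval_ne_zero
    (mul_ne_zero (homogeneousComponent_totalDegree_ne_zero hf.ne_zero) hL0)
    (lt_of_le_of_lt ((totalDegree_mul _ _).trans (add_le_add
      (homogeneousComponent_isHomogeneous _ f).totalDegree_le hLd)) hq)
  rw [map_mul, mul_ne_zero_iff] at hv
  have hLv : ∑ i, (pderiv i f).coeff s₀ * v i ≠ 0 := by simpa [hL] using hv.2
  refine ⟨v, fun e => hLv (by simp [e]), hv.1, fun e => hLv ?_⟩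
  have := congrArg (coeff s₀) e
  simpa [coeff_sum, coeff_C_mul, mul_comm] using this

variable {f : MvPolynomial (Fin (r + 1)) k} {v : Fin (r + 1) → k} {j : Fin (r + 1)} {w : k}

theorem monic_shear (hw : v j * w = 1) (c : Fin r → k)
    (htop : eval v (homogeneousComponent f.totalDegree f) = 1) :
    (finSuccEquiv k r (shear v j w hw c f)).Monic ∧
      (finSuccEquiv k r (shear v j w hw c f)).natDegree = f.totalDegree := by
  obtain ⟨G, hG⟩ : ∃ G, G = finSuccEquiv k r (shear v j w hw c f) := ⟨_, rfl⟩
  obtain ⟨e, he⟩ : ∃ e, e = f.totalDegree := ⟨_, rfl⟩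
  rw [← hG, ← he]
  rw [← he] at htop
  have hle : ∀ i, G.coeff i ≠ 0 → (G.coeff i).totalDegree + i ≤ e := fun i hi => by
    rw [he, hG]
    exact (totalDegree_coeff_finSuccEquiv_add_le _ i (hG ▸ hi)).trans
      (totalDegree_shear_le v j w hw c f)
  have hconst : G.coeff e = C ((G.coeff e).coeff 0) := by
    refine totalDegree_eq_zero_iff_eq_C.1 ?_
    rcases eq_or_ne (G.coeff e) 0 with h | h
    · rw [h, totalDegree_zero]
    · have := hle e h; omega
  have h1 := congrArg (fun Q => Polynomial.coeff Q e) (map_eval_shear v j w hw c (-c) f)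
  rw [← hG, Polynomial.coeff_map, hconst, eval_C] at h1
  have h2 : (fun i => Polynomial.C (v i) * Polynomial.X +
      Polynomial.C (Fin.insertNth (α := fun _ => k) j 0 (-c + c) i)) =
        fun i => Polynomial.C (v i) * Polynomial.X :=
    funext (Fin.succAboveCases j (by simp) fun m => by simp)
  rw [h2, ← line, coeff_line, htop] at h1
  have h3 : G.coeff e = 1 := by rw [hconst, h1, map_one]
  have hdeg : G.natDegree = e := le_antisymm
    (Polynomial.natDegree_le_iff_coeff_eq_zero.2 fun i hi => by_contra fun h => by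
      have := hle i h; omega)
    (Polynomial.le_natDegree_of_ne_zero (by rw [h3]; exact one_ne_zero))
  exact ⟨by rw [Polynomial.Monic, Polynomial.leadingCoeff, hdeg, h3], hdeg⟩

/-- The degree of a resultant. -/
theorem totalDegree_resultant_le {σ : Type*} {P Q : Polynomial (MvPolynomial σ k)} {B : ℕ}
    (hP : ∀ i, (P.coeff i).totalDegree ≤ B) (hQ : ∀ i, (Q.coeff i).totalDegree ≤ B) :
    (Polynomial.resultant P Q).totalDegree ≤ (P.natDegree + Q.natDegree) * B := by
  classical
  rw [Polynomial.resultant, Matrix.det_apply]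
  refine (totalDegree_finsetSum _ _).trans (Finset.sup_le fun σ' _ => ?_)
  have hprod : (∏ i, Polynomial.sylvester P Q P.natDegree Q.natDegree (σ' i) i).totalDegree ≤
      (P.natDegree + Q.natDegree) * B := by
    refine (totalDegree_finsetProd _ _).trans
      ((Finset.sum_le_card_nsmul _ _ B fun i _ => ?_).trans ?_)
    · rw [Polynomial.sylvester, Matrix.of_apply]
      induction i using Fin.addCases with
      | left l =>
        rw [Fin.addCases_left]
        split_ifs
        · exact hQ _
        · simp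
      | right l =>
        rw [Fin.addCases_right]
        split_ifs
        · exact hP _
        · simp
    · rw [Finset.card_univ, Fintype.card_fin, smul_eq_mul]
  rcases Int.units_eq_one_or (Equiv.Perm.sign σ') with e | e <;> rw [e] <;> simpa using hprod

/-- Some fibre in the direction `v` is squarefree. -/
theorem exists_separable_fibre [Finite k] (hw : v j * w = 1) (hf : Irreducible f)
    (htop : eval v (homogeneousComponent f.totalDegree f) = 1)
    (hD : ∑ i, C (v i) * pderiv i f ≠ 0)
    (hq : 2 * f.totalDegree * f.totalDegree < Nat.card k) :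
    ∃ c : Fin r → k,
      ((finSuccEquiv k r (shear v j w hw c f)).map MvPolynomial.constantCoeff).Separable := by
  classical
  obtain ⟨P, hP⟩ : ∃ P, P = finSuccEquiv k r (shear v j w hw 0 f) := ⟨_, rfl⟩
  obtain ⟨hPm, hPd⟩ := monic_shear hw (0 : Fin r → k) htop
  rw [← hP] at hPm hPd
  obtain ⟨d, hd⟩ : ∃ d, d = f.totalDegree := ⟨_, rfl⟩
  rw [← hd] at hPd hq
  have hPirr : Irreducible P := hP ▸ (MulEquiv.irreducible_iff (finSuccEquiv k r)).2
    ((MulEquiv.irreducible_iff (shear v j w hw 0)).2 hf)
  have hder : Polynomial.derivative P ≠ 0 := by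
    rw [hP, derivative_finSuccEquiv, pderiv_shear]
    exact fun e => hD (EmbeddingLike.map_eq_zero_iff.1 (EmbeddingLike.map_eq_zero_iff.1 e))
  have hn : P.natDegree ≠ 0 := fun h => hder (Polynomial.derivative_of_natDegree_zero h)
  obtain ⟨res, hres⟩ : ∃ res, res = Polynomial.resultant P (Polynomial.derivative P) := ⟨_, rfl⟩
  have hres0 : res ≠ 0 := by
    obtain ⟨L, _, _, _, hL⟩ : ∃ (L : Type _) (_ : Field L) (_ : Algebra (MvPolynomial (Fin r) k) L)
        (_ : IsFractionRing (MvPolynomial (Fin r) k) L), True :=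
      ⟨FractionRing (MvPolynomial (Fin r) k), inferInstance, inferInstance, inferInstance, trivial⟩
    have hinj := IsFractionRing.injective (MvPolynomial (Fin r) k) L
    have hirr' := (hPm.irreducible_iff_irreducible_map_fraction_map (K := L)).1 hPirr
    have h1 := (Polynomial.separable_iff_derivative_ne_zero hirr').2 (by
      rw [Polynomial.derivative_map]
      exact fun e => hder (Polynomial.map_injective _ hinj (e.trans (Polynomial.map_zero _).symm)))
    have h2 := Polynomial.resultant_ne_zero _ _ h1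
    rw [Polynomial.derivative_map, Polynomial.resultant_map_map,
      Polynomial.natDegree_map_eq_of_injective hinj,
      Polynomial.natDegree_map_eq_of_injective hinj] at h2
    intro e
    rw [hres] at e
    exact h2 (by rw [e, map_zero])
  have hco : ∀ i, (P.coeff i).totalDegree ≤ d := fun i => hP ▸ hd ▸
    (totalDegree_coeff_finSuccEquiv_le _ i).trans (totalDegree_shear_le v j w hw 0 f)
  have hco' : ∀ i, ((Polynomial.derivative P).coeff i).totalDegree ≤ d := fun i => by
    rw [Polynomial.coeff_derivative, ← Nat.cast_succ, ← map_natCast C]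
    exact (totalDegree_mul _ _).trans (by rw [totalDegree_C, add_zero]; exact hco _)
  have hdeg : res.totalDegree ≤ 2 * d * d := by
    refine hres ▸ (totalDegree_resultant_le (B := d) hco hco').trans (Nat.mul_le_mul_right _ ?_)
    have := Polynomial.natDegree_derivative_le P
    omega
  obtain ⟨c, hc⟩ := exists_eval_ne_zero hres0 (lt_of_le_of_lt hdeg hq)
  refine ⟨c, ?_⟩
  rw [show (MvPolynomial.constantCoeff : MvPolynomial (Fin r) k →+* k) = eval 0 from
    eval_zero.symm, map_eval_shear, zero_add, ← add_zero c, ← map_eval_shear v j w hw 0 c f, ← hP]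
  obtain ⟨a, b, -, -, hab⟩ :=
    Polynomial.exists_mul_add_mul_eq_C_resultant P (Polynomial.derivative P) le_rfl le_rfl
      (Or.inl hn)
  rw [← hres] at hab
  have h1 := congrArg (Polynomial.map (eval c)) hab
  rw [Polynomial.map_add, Polynomial.map_mul, Polynomial.map_mul, Polynomial.map_C,
    ← Polynomial.derivative_map] at h1
  refine ⟨Polynomial.C (eval c res)⁻¹ * a.map (eval c),
    Polynomial.C (eval c res)⁻¹ * b.map (eval c), ?_⟩
  rw [mul_assoc, mul_assoc, ← mul_add, mul_comm (a.map _), mul_comm (b.map _), h1,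
    ← Polynomial.C_mul, inv_mul_cancel₀ hc, Polynomial.C_1]

theorem countError_mono {d d' : ℕ} (h : d ≤ d') : countError d ≤ countError d' :=
  Nat.mul_le_mul_left _ (Nat.add_le_add_right (add_le_add (add_le_add (add_le_add
    (Nat.mul_le_mul h h) (CurveRH.planeError_mono h)) h)
      (Nat.mul_le_mul (Nat.mul_le_mul (Nat.pow_le_pow_right two_pos h) (Nat.mul_le_mul_left 2 h)) h))
    2)

/-- **Lang–Weil for hypersurfaces**: an absolutely irreducible hypersurface of degree at most `d`
in affine `(r + 1)`-space over `𝔽_q` has `q ^ r + O_d (q ^ (r - 1/2))` points. -/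
theorem abs_natCard_sub_le [Finite k] {f : MvPolynomial (Fin (r + 1)) k} {d : ℕ}
    (hd : f.totalDegree ≤ d)
    (hirr : Irreducible (f.map (algebraMap k (AlgebraicClosure k)))) :
    |(Nat.card {x : Fin (r + 1) → k // eval x f = 0} : ℝ) - (Nat.card k : ℝ) ^ r| ≤
      countError d * (Nat.card k : ℝ) ^ r / Real.sqrt (Nat.card k) := by
  classical
  have hf := AxFiniteFields.irreducible_of_irreducible_map _ hirr
  have he : 0 < f.totalDegree := by
    refine Nat.pos_of_ne_zero fun e => ?_
    rw [totalDegree_eq_zero_iff_eq_C.1 e] at hf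
    rcases eq_or_ne (f.coeff 0) 0 with h | h
    · exact hf.ne_zero (by rw [h, map_zero])
    · exact hf.not_isUnit ((Ne.isUnit h).map C)
  have hs : (0 : ℝ) < Real.sqrt (Nat.card k) := Real.sqrt_pos.2 (Nat.cast_pos.2 Nat.card_pos)
  refine le_trans ?_ (div_le_div_of_nonneg_right (mul_le_mul_of_nonneg_right
    (Nat.cast_le.2 (countError_mono hd)) (pow_nonneg (Nat.cast_nonneg _) r)) hs.le)
  obtain ⟨e, hdeg⟩ : ∃ e, e = f.totalDegree := ⟨_, rfl⟩
  rw [← hdeg] at he ⊢
  by_cases hq : 2 * e * e + e + 1 < Nat.card k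
  · obtain ⟨v, hv, htop, hD⟩ := exists_direction hf (by rw [← hdeg]; omega)
    obtain ⟨j, hj⟩ := Function.ne_iff.1 hv
    have hw : v j * (v j)⁻¹ = 1 := mul_inv_cancel₀ hj
    obtain ⟨a, ha⟩ : ∃ a, a = (eval v (homogeneousComponent f.totalDegree f))⁻¹ := ⟨_, rfl⟩
    have ha0 : a ≠ 0 := ha ▸ inv_ne_zero htop
    obtain ⟨g, hg⟩ : ∃ g, g = C a * f := ⟨_, rfl⟩
    have hgdeg : g.totalDegree = e := by
      rw [hg, hdeg, totalDegree, totalDegree, ← smul_eq_C_mul, support_smul_eq ha0]
    have hgtop : eval v (homogeneousComponent g.totalDegree g) = 1 := by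
      rw [hgdeg, hdeg, hg, homogeneousComponent_C_mul, map_mul, eval_C, ha, inv_mul_cancel₀ htop]
    have hgirr : Irreducible g := hg ▸ (irreducible_isUnit_mul ((Ne.isUnit ha0).map C)).2 hf
    have hgirr' : Irreducible (g.map (algebraMap k (AlgebraicClosure k))) := by
      rw [hg, map_mul, map_C]
      exact (irreducible_isUnit_mul ((Ne.isUnit ((map_ne_zero _).2 ha0)).map C)).2 hirr
    have hgD : ∑ i, C (v i) * pderiv i g ≠ 0 := by
      rw [hg, show ∑ i, C (v i) * pderiv i (C a * f) = C a * ∑ i, C (v i) * pderiv i f by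
        rw [Finset.mul_sum]
        exact Finset.sum_congr rfl fun i _ => by rw [pderiv_C_mul]; ring]
      exact mul_ne_zero (C_ne_zero.2 ha0) hD
    obtain ⟨c, hc⟩ := exists_separable_fibre hw hgirr hgtop hgD (by rw [hgdeg]; omega)
    obtain ⟨hm, hn⟩ := monic_shear hw c hgtop
    have h := abs_natCard_sub_le_of_normal hm hn (totalDegree_shear_le v j _ hw c g)
      (by rw [map_shear]; exact (MulEquiv.irreducible_iff (shear _ j _ _ _)).2 hgirr') hc
    rw [natCard_zeros_shear, hgdeg] at h
    simpa [hg, ha0] using h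
  · have hN : Nat.card {x : Fin (r + 1) → k // eval x f = 0} ≤ e * Nat.card k ^ r := by
      have := natCard_zeros_mul_le hf.ne_zero
      rw [← hdeg, pow_succ, ← mul_assoc] at this
      exact Nat.le_of_mul_le_mul_right this Nat.card_pos
    have hN' : (Nat.card {x : Fin (r + 1) → k // eval x f = 0} : ℝ) ≤
        e * (Nat.card k : ℝ) ^ r := by exact_mod_cast hN
    have he' : (1 : ℝ) ≤ e := by exact_mod_cast he
    have hsq : Real.sqrt (Nat.card k) ≤ (2 * e : ℕ) :=
      (Real.sqrt_le_left (Nat.cast_nonneg _)).2 (by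
        exact_mod_cast le_trans (not_lt.1 hq) (by nlinarith : 2 * e * e + e + 1 ≤ (2 * e) ^ 2))
    have hC : (e : ℝ) * Real.sqrt (Nat.card k) ≤ countError e := by
      refine (mul_le_mul_of_nonneg_left hsq (Nat.cast_nonneg e)).trans ?_
      rw [← Nat.cast_mul]
      exact Nat.cast_le.2 (by
        rw [countError]
        nlinarith [Nat.zero_le (2 ^ e * (2 * e) * e), Nat.zero_le (CurveRH.planeError e)])
    rw [le_div_iff₀ hs]
    have hQ : (0 : ℝ) ≤ (Nat.card k : ℝ) ^ r := pow_nonneg (Nat.cast_nonneg _) r
    refine le_trans (mul_le_mul_of_nonneg_right (abs_le.2 ⟨?_, ?_⟩ :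
      |(Nat.card {x : Fin (r + 1) → k // eval x f = 0} : ℝ) - (Nat.card k : ℝ) ^ r| ≤
        e * (Nat.card k : ℝ) ^ r) hs.le) ?_
    · nlinarith [(Nat.cast_nonneg (Nat.card {x : Fin (r + 1) → k // eval x f = 0}) :
        (0 : ℝ) ≤ _)]
    · linarith
    · rw [mul_right_comm]
      exact mul_le_mul_of_nonneg_right hC hQ

end FA.LangWeilAll

end
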