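import Fermat.Agent.LangWeilAll.Bertini
import Fermat.Agent.CurveRH.LangWeil
import Mathlib.Algebra.MvPolynomial.SchwartzZippel

/-!
# The points of a hypersurface in normal position

For `f ∈ k[Y, X₁ … X_r]` monic in `Y` of its degree `d`, absolutely irreducible and with
`f (Y, 0)` squarefree, the lines through the origin give plane curves covering each point off
`X = 0` equally often; almost all are absolutely irreducible, so `f` has `q ^ r` zeros up to
`O_d (q ^ (r - 1/2))`, uniformly in `r`.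
-/

set_option autoImplicit false
set_option linter.style.haveILetI false

noncomputable section

namespace FA.LangWeilAll

open MvPolynomial Polynomial.Bivariate

section General

variable {σ τ R S : Type*} [CommRing R] [CommRing S]

theorem eval_aeval_apply (x : τ → R) (g : σ → MvPolynomial τ R) (f : MvPolynomial σ R) :
    eval x (aeval g f) = eval (fun i => eval x (g i)) f := by
  induction f using MvPolynomial.induction_on with
  | C r => simp
  | add u v hu hv => simp only [map_add, hu, hv]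
  | mul_X u i hu => simp only [map_mul, aeval_X, eval_X, hu]

theorem map_aeval_apply (φ : R →+* S) (g : σ → MvPolynomial τ R) (f : MvPolynomial σ R) :
    (aeval g f).map φ = aeval (fun i => (g i).map φ) (f.map φ) := by
  induction f using MvPolynomial.induction_on with
  | C r => simp
  | add u v hu hv => simp only [map_add, hu, hv]
  | mul_X u i hu => simp only [map_mul, aeval_X, map_X, hu]

theorem totalDegree_aeval_le (g : σ → MvPolynomial τ R) (hg : ∀ i, (g i).totalDegree ≤ 1)
    (f : MvPolynomial σ R) : (aeval g f).totalDegree ≤ f.totalDegree := by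
  conv_lhs => rw [f.as_sum, map_sum]
  refine (totalDegree_finsetSum _ _).trans (Finset.sup_le fun s hs => ?_)
  rw [aeval_monomial, algebraMap_eq]
  refine (totalDegree_mul _ _).trans ?_
  rw [totalDegree_C, zero_add, Finsupp.prod]
  refine (totalDegree_finsetProd _ _).trans (le_trans ?_ (le_totalDegree hs))
  exact Finset.sum_le_sum fun i _ =>
    (totalDegree_pow _ _).trans ((Nat.mul_le_mul_left _ (hg i)).trans (Nat.mul_one _).le)

theorem map_finSuccEquiv {r : ℕ} (φ : R →+* S) (f : MvPolynomial (Fin (r + 1)) R) :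
    (finSuccEquiv R r f).map (MvPolynomial.map φ) = finSuccEquiv S r (f.map φ) := by
  induction f using MvPolynomial.induction_on with
  | C a => simp [finSuccEquiv_apply]
  | add u v hu hv => simp only [map_add, Polynomial.map_add, hu, hv]
  | mul_X u i hu =>
    simp only [map_mul, map_X, Polynomial.map_mul, hu]
    refine Fin.cases ?_ (fun j => ?_) i <;> simp [finSuccEquiv_X_zero, finSuccEquiv_X_succ]

theorem totalDegree_map_le (φ : R →+* S) (f : MvPolynomial σ R) :
    (f.map φ).totalDegree ≤ f.totalDegree :=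
  Finset.sup_le fun _ hs => le_totalDegree (support_map_subset _ f hs)

theorem totalDegree_coeff_finSuccEquiv_le {r : ℕ} (f : MvPolynomial (Fin (r + 1)) R) (i : ℕ) :
    ((finSuccEquiv R r f).coeff i).totalDegree ≤ f.totalDegree := by
  rcases eq_or_ne ((finSuccEquiv R r f).coeff i) 0 with h | h
  · simp [h]
  · exact le_trans (Nat.le_add_right _ _) (totalDegree_coeff_finSuccEquiv_add_le f i h)

end General

variable {k : Type*} [Field k] {r : ℕ}

/-- The plane section by the line through `u` and the `Y` axis. -/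
def sec (u : Fin r → k) (f : MvPolynomial (Fin (r + 1)) k) : MvPolynomial (Fin 2) k :=
  aeval (Fin.cons (X 1) fun i => C (u i) * X 0 : Fin (r + 1) → MvPolynomial (Fin 2) k) f

theorem eval_sec (u : Fin r → k) (f : MvPolynomial (Fin (r + 1)) k) (x : Fin 2 → k) :
    eval x (sec u f) = eval (Fin.cons (x 1) (x 0 • u)) f := by
  rw [sec, eval_aeval_apply]
  refine congrArg (fun v => eval v f) (funext (Fin.cases ?_ fun i => ?_))
  · simp
  · simp [mul_comm]

theorem totalDegree_sec_le (u : Fin r → k) (f : MvPolynomial (Fin (r + 1)) k) :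
    (sec u f).totalDegree ≤ f.totalDegree := by
  refine totalDegree_aeval_le _ (Fin.cases ?_ fun i => ?_) f
  · simp
  · simp only [Fin.cons_succ]
    exact (totalDegree_mul _ _).trans (by simp)

theorem map_sec {K : Type*} [Field K] (φ : k →+* K) (u : Fin r → k)
    (f : MvPolynomial (Fin (r + 1)) k) : (sec u f).map φ = sec (φ ∘ u) (f.map φ) := by
  rw [sec, map_aeval_apply, sec]
  refine congrArg (fun g : Fin (r + 1) → MvPolynomial (Fin 2) K => aeval g (f.map φ))
    (funext (Fin.cases ?_ fun i => ?_)) <;> simp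

theorem equivMvPolynomial_line (u : Fin r → k) (f : MvPolynomial (Fin (r + 1)) k) :
    equivMvPolynomial k ((finSuccEquiv k r f).map (line u).toRingHom) = sec u f := by
  induction f using MvPolynomial.induction_on with
  | C a => simp [sec, line, finSuccEquiv_apply, equivMvPolynomial]
  | add a b ha hb => simp only [sec, map_add, Polynomial.map_add] at ha hb ⊢; rw [ha, hb]
  | mul_X a i ha =>
    simp only [sec, map_mul, Polynomial.map_mul, aeval_X] at ha ⊢
    rw [ha]
    refine congrArg _ ?_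
    refine Fin.cases ?_ (fun j => ?_) i <;>
      simp [line, finSuccEquiv_X_zero, finSuccEquiv_X_succ, equivMvPolynomial]

/-- A rational point of a hypersurface has at most `q ^ r` times degree many companions. -/
theorem card_eval_zero_mul_le [Finite k] {K : Type*} [Field K] (φ : k →+* K) {n : ℕ}
    {R : MvPolynomial (Fin n) K} (hR : R ≠ 0) :
    Nat.card {u : Fin n → k // eval (φ ∘ u) R = 0} * Nat.card k ≤
      R.totalDegree * Nat.card k ^ n := by
  classical
  have := Fintype.ofFinite k
  obtain ⟨S, hS⟩ : ∃ S : Finset K, S = Finset.univ.image φ := ⟨_, rfl⟩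
  have hcard : S.card = Nat.card k := by
    rw [hS, Finset.card_image_of_injective _ φ.injective, Finset.card_univ,
      Nat.card_eq_fintype_card]
  have h := schwartz_zippel_totalDegree hR S
  rw [hcard] at h
  have hq : (0 : ℚ≥0) < (Nat.card k : ℚ≥0) := Nat.cast_pos.2 Nat.card_pos
  rw [div_le_div_iff₀ (pow_pos hq n) hq] at h
  refine le_trans (Nat.mul_le_mul_right _ ?_) (by exact_mod_cast h)
  rw [Nat.card_eq_fintype_card, Fintype.card_subtype]
  refine Finset.card_le_card_of_injOn (φ ∘ ·) (fun u hu => ?_) fun u _ v _ e =>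
    funext fun i => φ.injective (congrFun e i)
  rw [Finset.mem_coe, Finset.mem_filter] at hu ⊢
  exact ⟨Fintype.mem_piFinset.2 fun i => hS ▸ Finset.mem_image_of_mem φ (Finset.mem_univ _), hu.2⟩

/-- The constant of the count. -/
def countError (d : ℕ) : ℕ :=
  2 * (d * d + CurveRH.planeError d + d + 2 ^ d * (2 * d) * d + 2)

variable [Finite k] {f : MvPolynomial (Fin (r + 1)) k} {d : ℕ}

theorem natCard_fibre_le (hm : (finSuccEquiv k r f).Monic) (hn : (finSuccEquiv k r f).natDegree = d)
    (u : Fin r → k) (T : Finset k) :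
    Nat.card {x : Fin 2 → k // x 0 ∈ T ∧ eval x (sec u f) = 0} ≤ d * T.card := by
  classical
  have := Fintype.ofFinite k
  rw [Nat.card_eq_fintype_card, Fintype.card_subtype]
  refine Finset.card_le_mul_card_image_of_maps_to (f := fun x : Fin 2 → k => x 0)
    (fun x hx => (Finset.mem_filter.1 hx).2.1) d fun a _ => ?_
  refine le_trans (Finset.card_le_card_of_injOn (fun x : Fin 2 → k => x 1)
    (t := ((finSuccEquiv k r f).map (eval (a • u))).roots.toFinset) (fun x hx => ?_)
    fun x hx y hy e => ?_) ?_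
  · rw [Finset.mem_coe, Finset.mem_filter, Finset.mem_filter] at hx
    rw [Finset.mem_coe, Multiset.mem_toFinset, Polynomial.mem_roots (hm.map _).ne_zero,
      Polynomial.IsRoot, ← eval_eq_eval_mv_eval', ← hx.2, ← eval_sec]
    exact hx.1.2.2
  · rw [Finset.mem_coe, Finset.mem_filter] at hx hy
    funext i
    fin_cases i
    · exact hx.2.trans hy.2.symm
    · exact e
  · exact ((Multiset.toFinset_card_le _).trans (Polynomial.card_roots' _)).trans
      (Polynomial.natDegree_map_le.trans hn.le)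

/-- The points of the sections, off the origin of the line. -/
theorem sum_natCard_sections (f : MvPolynomial (Fin (r + 1)) k) [Fintype k] :
    ∑ u : Fin r → k, Nat.card {x : Fin 2 → k // x 0 ≠ 0 ∧ eval x (sec u f) = 0} =
      (Nat.card k - 1) * Nat.card {y : Fin (r + 1) → k // eval y f = 0} := by
  classical
  rw [show Nat.card k - 1 = Nat.card {t : k // t ≠ 0} by
    simp [Nat.card_eq_fintype_card, Fintype.card_subtype_compl], ← Nat.card_prod, ← Nat.card_sigma]
  refine Nat.card_congr ((Equiv.subtypeProdEquivSigmaSubtype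
    (fun (u : Fin r → k) (x : Fin 2 → k) => x 0 ≠ 0 ∧ eval x (sec u f) = 0)).symm.trans
    { toFun := fun p => (⟨p.1.2 0, p.2.1⟩, ⟨Fin.cons (p.1.2 1) (p.1.2 0 • p.1.1),
        (eval_sec p.1.1 f p.1.2).symm.trans p.2.2⟩)
      invFun := fun p => ⟨((p.1 : k)⁻¹ • Fin.tail (p.2 : Fin (r + 1) → k), ![(p.1 : k), p.2.1 0]),
        p.1.2, by
          rw [eval_sec]
          simp only [Matrix.cons_val_zero, Matrix.cons_val_one, smul_smul,
            mul_inv_cancel₀ p.1.2, one_smul, Fin.cons_self_tail]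
          exact p.2.2⟩
      left_inv := fun p => ?_
      right_inv := fun p => ?_ })
  · obtain ⟨⟨u, x⟩, hx, _⟩ := p
    refine Subtype.ext (Prod.ext ?_ (funext fun i => by fin_cases i <;> simp))
    simp [smul_smul, inv_mul_cancel₀ hx]
  · obtain ⟨⟨t, ht⟩, ⟨y, hy⟩⟩ := p
    refine Prod.ext (Subtype.ext (by simp)) (Subtype.ext ?_)
    simp [smul_smul, mul_inv_cancel₀ ht]

/-- **The count in normal position.** -/
theorem abs_natCard_sub_le_of_normal (hm : (finSuccEquiv k r f).Monic)
    (hn : (finSuccEquiv k r f).natDegree = d) (htot : f.totalDegree ≤ d)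
    (hirr : Irreducible (f.map (algebraMap k (AlgebraicClosure k))))
    (hsep : ((finSuccEquiv k r f).map MvPolynomial.constantCoeff).Separable) :
    |(Nat.card {y : Fin (r + 1) → k // eval y f = 0} : ℝ) - (Nat.card k : ℝ) ^ r| ≤
      countError d * (Nat.card k : ℝ) ^ r / Real.sqrt (Nat.card k) := by
  classical
  have := Fintype.ofFinite k
  obtain ⟨K, _, _, φ, hirr⟩ : ∃ (K : Type _) (_ : Field K) (_ : IsAlgClosed K) (φ : k →+* K),
      φ = φ ∧ Irreducible (f.map φ) ∧
        ∀ g : MvPolynomial (Fin 2) k, Irreducible (g.map φ) →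
          Irreducible (g.map (algebraMap k (AlgebraicClosure k))) :=
    ⟨AlgebraicClosure k, inferInstance, inferInstance, algebraMap k _, rfl, hirr, fun _ h => h⟩
  obtain ⟨-, hirr, hback⟩ := hirr
  have hd : 0 < d := by
    refine Nat.pos_of_ne_zero fun e => hirr.not_isUnit ?_
    rw [show f = 1 from (finSuccEquiv k r).injective (by
      rw [map_one, Polynomial.eq_one_of_monic_natDegree_zero hm (hn.trans e)]), map_one]
    exact isUnit_one
  obtain ⟨P, hP⟩ : ∃ P, P = finSuccEquiv K r (f.map φ) := ⟨_, rfl⟩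
  have hPm : P.Monic := by rw [hP, ← map_finSuccEquiv]; exact hm.map _
  have hPd : P.natDegree = d := by rw [hP, ← map_finSuccEquiv, hm.natDegree_map, hn]
  obtain ⟨R, hR0, hRd, hR⟩ := exists_bertini hPm hPd
    (fun i => hP ▸ (totalDegree_coeff_finSuccEquiv_le _ i).trans
      ((totalDegree_map_le _ f).trans htot))
    (hP ▸ (MulEquiv.irreducible_iff (finSuccEquiv K r)).2 hirr)
    (by
      have := hsep.map (f := φ)
      rw [Polynomial.map_map] at this
      rw [hP, ← map_finSuccEquiv, Polynomial.map_map]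
      convert this using 2
      exact RingHom.ext fun g => by simp [constantCoeff_eq, coeff_map])
  obtain ⟨M, hM⟩ : ∃ M : (Fin r → k) → ℕ, ∀ u,
      M u = Nat.card {x : Fin 2 → k // x 0 ≠ 0 ∧ eval x (sec u f) = 0} := ⟨_, fun _ => rfl⟩
  obtain ⟨Z, hZ⟩ : ∃ Z : (Fin r → k) → ℕ, ∀ u,
      Z u = Nat.card {x : Fin 2 → k // eval x (sec u f) = 0} := ⟨_, fun _ => rfl⟩
  have hMZ : ∀ u, M u ≤ Z u ∧ Z u ≤ M u + d ∧ Z u ≤ d * Nat.card k := fun u => by
    have h1 := natCard_fibre_le hm hn u {0}
    have h2 := natCard_fibre_le hm hn u Finset.univ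
    simp only [Finset.mem_singleton, Finset.card_singleton, mul_one, Finset.mem_univ, true_and,
      Finset.card_univ, ← Nat.card_eq_fintype_card] at h1 h2
    rw [hM, hZ]
    simp only [Nat.card_eq_fintype_card, Fintype.card_subtype] at h1 h2 ⊢
    refine ⟨Finset.card_le_card fun x hx => ?_, ?_, h2⟩
    · rw [Finset.mem_filter] at hx ⊢
      exact ⟨hx.1, hx.2.2⟩
    · refine le_trans (Finset.card_le_card fun x hx => ?_)
        ((Finset.card_union_le _ _).trans (Nat.add_le_add_left h1 _))
      rw [Finset.mem_filter] at hx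
      rw [Finset.mem_union, Finset.mem_filter, Finset.mem_filter]
      exact (em (x 0 = 0)).elim (fun h => Or.inr ⟨hx.1, h, hx.2⟩) fun h => Or.inl ⟨hx.1, h, hx.2⟩
  obtain ⟨q, hq⟩ : ∃ q, q = Nat.card k := ⟨_, rfl⟩
  obtain ⟨s, hs⟩ : ∃ s, s = Real.sqrt q := ⟨_, rfl⟩
  have hq1 : 2 ≤ q := hq ▸ Finite.one_lt_card
  have hq1' : (2 : ℝ) ≤ q := by exact_mod_cast hq1
  have hs2 : s * s = q := hs ▸ Real.mul_self_sqrt (Nat.cast_nonneg q)
  have hs1 : 1 ≤ s := hs ▸ Real.one_le_sqrt.2 (by linarith)
  obtain ⟨A, hA⟩ : ∃ A : ℝ, A = (d * d + CurveRH.planeError d + d + 1 : ℕ) * s := ⟨_, rfl⟩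
  have hA0 : 0 ≤ A := hA ▸ mul_nonneg (Nat.cast_nonneg _) (by linarith)
  have hterm : ∀ u : Fin r → k, |(M u : ℝ) - q| ≤
      A + if eval (φ ∘ u) R = 0 then (d : ℝ) * q else 0 := fun u => by
    obtain ⟨h1, h2, h3⟩ := hMZ u
    rw [← hq] at h3
    split_ifs with hu
    · have h4 : (M u : ℝ) ≤ d * q := by exact_mod_cast h1.trans h3
      have h5 : (1 : ℝ) * q ≤ d * q :=
        mul_le_mul_of_nonneg_right (by exact_mod_cast hd) (by linarith)
      rw [abs_le]
      constructor <;> linarith [(Nat.cast_nonneg (M u) : (0 : ℝ) ≤ M u)]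
    · have hsec : Irreducible ((sec u f).map φ) := by
        rw [map_sec, ← equivMvPolynomial_line, ← hP]
        exact (MulEquiv.irreducible_iff (equivMvPolynomial K)).2 (hR _ hu)
      have hW := CurveRH.abs_natCard_sub_le k ((totalDegree_sec_le u f).trans htot)
        (hback _ hsec)
      rw [← hZ, ← hq, ← hs] at hW
      have hd' : (((d - 1) * (d - 2) : ℕ) : ℝ) * s ≤ (d * d : ℕ) * s :=
        mul_le_mul_of_nonneg_right (Nat.cast_le.2 (Nat.mul_le_mul (Nat.sub_le _ _) (Nat.sub_le _ _)))
          (by linarith)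
      have h4 : (M u : ℝ) ≤ Z u := by exact_mod_cast h1
      have h5 : (Z u : ℝ) ≤ M u + d := by exact_mod_cast h2
      have h6 : ((CurveRH.planeError d + d + 1 : ℕ) : ℝ) ≤
          (CurveRH.planeError d + d + 1 : ℕ) * s :=
        le_mul_of_one_le_right (Nat.cast_nonneg _) hs1
      rw [abs_le] at hW ⊢
      push_cast at hW hd' h6 hA ⊢
      constructor <;> linarith [hW.1, hW.2, (Nat.cast_nonneg d : (0 : ℝ) ≤ d)]
  obtain ⟨N, hN⟩ : ∃ N, N = Nat.card {y : Fin (r + 1) → k // eval y f = 0} := ⟨_, rfl⟩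
  rw [← hN, ← hq, ← hs]
  have hsum : ((q : ℝ) - 1) * N = ∑ u : Fin r → k, (M u : ℝ) := by
    rw [← Nat.cast_sum, Finset.sum_congr rfl fun u _ => hM u, sum_natCard_sections, ← hN, ← hq,
      Nat.cast_mul, Nat.cast_sub (by omega), Nat.cast_one]
  have hcardU : (Finset.univ : Finset (Fin r → k)).card = q ^ r := by
    rw [Finset.card_univ, Fintype.card_fun, Fintype.card_fin, hq, Nat.card_eq_fintype_card]
  have hbad : ((Finset.univ.filter fun u : Fin r → k => eval (φ ∘ u) R = 0).card : ℝ) * q ≤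
      (2 ^ d * (2 * d) : ℕ) * (q : ℝ) ^ r := by
    have := (card_eval_zero_mul_le φ hR0).trans (Nat.mul_le_mul_right _ hRd)
    rw [Nat.card_eq_fintype_card, Fintype.card_subtype, ← hq] at this
    exact_mod_cast this
  have hmain : |((q : ℝ) - 1) * N - (q : ℝ) ^ r * q| ≤
      (q : ℝ) ^ r * (A + (2 ^ d * (2 * d) : ℕ) * d) := by
    rw [hsum, show (q : ℝ) ^ r * q = ∑ _u : Fin r → k, (q : ℝ) by
      rw [Finset.sum_const, hcardU, nsmul_eq_mul, Nat.cast_pow], ← Finset.sum_sub_distrib]
    refine (Finset.abs_sum_le_sum_abs _ _).trans ((Finset.sum_le_sum fun u _ => hterm u).trans ?_)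
    rw [Finset.sum_add_distrib, ← Finset.sum_filter, Finset.sum_const, hcardU, nsmul_eq_mul,
      Finset.sum_const, nsmul_eq_mul, Nat.cast_pow, mul_add]
    linarith [mul_le_mul_of_nonneg_right hbad (Nat.cast_nonneg (α := ℝ) d)]
  have hkey : ((q : ℝ) - 1) * |(N : ℝ) - (q : ℝ) ^ r| ≤
      (q : ℝ) ^ r * (A + (2 ^ d * (2 * d) : ℕ) * d + 1) := by
    rw [← abs_of_nonneg (by linarith : (0 : ℝ) ≤ (q : ℝ) - 1), ← abs_mul]
    refine le_trans (le_of_eq (congrArg _ (by ring : _ =
      (((q : ℝ) - 1) * N - (q : ℝ) ^ r * q) + (q : ℝ) ^ r))) ((abs_add_le _ _).trans ?_)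
    rw [abs_of_nonneg (pow_nonneg (Nat.cast_nonneg (α := ℝ) q) r)]
    linarith
  rw [le_div_iff₀ (by linarith), countError]
  have hB : ((2 ^ d * (2 * d) : ℕ) : ℝ) * d + 1 ≤ ((2 ^ d * (2 * d) : ℕ) * d + 1) * s :=
    le_mul_of_one_le_right (add_nonneg (mul_nonneg (Nat.cast_nonneg _) (Nat.cast_nonneg _))
      zero_le_one) hs1
  have hX := abs_nonneg ((N : ℝ) - (q : ℝ) ^ r)
  have hQ : (0 : ℝ) ≤ (q : ℝ) ^ r := pow_nonneg (Nat.cast_nonneg q) r
  have h7 : |(N : ℝ) - (q : ℝ) ^ r| * s * s ≤
      2 * ((q : ℝ) ^ r * (A + ((2 ^ d * (2 * d) : ℕ) * d + 1) * s)) := by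
    rw [mul_assoc, hs2]
    nlinarith [mul_le_mul_of_nonneg_left hB hQ, mul_le_mul_of_nonneg_left hq1' hX]
  refine le_of_mul_le_mul_right (h7.trans (le_of_eq ?_)) (by linarith : (0 : ℝ) < s)
  rw [hA]
  push_cast
  ring

end FA.LangWeilAll

end
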