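import Fermat.Agent.CurveRH.Main
import Mathlib.Dynamics.Newton
import Mathlib.RingTheory.MvPolynomial.Homogeneous
import Mathlib.RingTheory.MvPolynomial.Ideal

/-!
# An effective theorem of Bertini

`P ∈ K[X][Y]` monic of degree `d` and total degree `d`, irreducible, with `P (0, Y)` squarefree:
outside a hypersurface of degree at most `2 ^ d (2 d)` the sections `P (u T, Y)` are irreducible.
The roots are lifted modulo the `2 d + 1`st power of the ideal of the variables.
-/

set_option autoImplicit false
set_option linter.style.haveILetI false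

noncomputable section

namespace FA.LangWeilAll

open Polynomial MvPolynomial

/-- A monic polynomial with enough roots at unit distances is their product. -/
theorem eq_prod_of_roots {A ι : Type*} [CommRing A] [Nontrivial A] (s : Finset ι) (r : ι → A) :
    ∀ Q : A[X], Q.Monic → Q.natDegree = s.card → (∀ i ∈ s, Q.eval (r i) = 0) →
      (∀ i ∈ s, ∀ j ∈ s, i ≠ j → IsUnit (r i - r j)) →
        Q = ∏ i ∈ s, (Polynomial.X - Polynomial.C (r i)) := by
  classical
  induction s using Finset.induction_on with
  | empty =>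
    intro Q hQ hd _ _
    rw [Finset.prod_empty]
    exact Polynomial.eq_one_of_monic_natDegree_zero hQ (by simpa using hd)
  | insert a s ha ih =>
    intro Q hQ hd hroot hunit
    obtain ⟨Q', hQ'⟩ := Polynomial.dvd_iff_isRoot.2 (hroot a (Finset.mem_insert_self a s))
    have hm : Q'.Monic := (Polynomial.monic_X_sub_C (r a)).of_mul_monic_left (hQ' ▸ hQ)
    have hdeg : Q'.natDegree = s.card := by
      rw [hQ', (Polynomial.monic_X_sub_C (r a)).natDegree_mul hm, Polynomial.natDegree_X_sub_C,
        Finset.card_insert_of_notMem ha] at hd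
      omega
    have hroot' : ∀ i ∈ s, Q'.eval (r i) = 0 := fun i hi => by
      have h := hroot i (Finset.mem_insert_of_mem hi)
      rw [hQ', Polynomial.eval_mul, Polynomial.eval_sub, Polynomial.eval_X, Polynomial.eval_C] at h
      exact (hunit i (Finset.mem_insert_of_mem hi) a (Finset.mem_insert_self a s)
        fun e => ha (e ▸ hi)).mul_right_eq_zero.1 h
    rw [Finset.prod_insert ha, ← ih Q' hm hdeg hroot' fun i hi j hj =>
      hunit i (Finset.mem_insert_of_mem hi) j (Finset.mem_insert_of_mem hj), hQ']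

variable {σ K : Type*} [Field K]

/-- Restriction to the line through `u`. -/
def line (u : σ → K) : MvPolynomial σ K →ₐ[K] K[X] :=
  MvPolynomial.aeval fun i => Polynomial.C (u i) * Polynomial.X

theorem line_monomial (u : σ → K) (s : σ →₀ ℕ) (r : K) :
    line u (monomial s r) = Polynomial.C (r * s.prod fun i e => u i ^ e) * Polynomial.X ^ s.degree := by
  rw [line, MvPolynomial.aeval_monomial, Polynomial.algebraMap_eq, Finsupp.prod, Finsupp.prod,
    Finsupp.degree_apply, map_mul, map_prod, ← Finset.prod_pow_eq_pow_sum, mul_assoc,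
    ← Finset.prod_mul_distrib]
  simp only [mul_pow, map_pow]

theorem coeff_line (u : σ → K) (q : MvPolynomial σ K) (j : ℕ) :
    (line u q).coeff j = MvPolynomial.eval u (homogeneousComponent j q) := by
  induction q using MvPolynomial.induction_on' with
  | add a b ha hb => simp only [map_add, Polynomial.coeff_add, ha, hb]
  | monomial s r =>
    rw [line_monomial, Polynomial.coeff_C_mul_X_pow,
      homogeneousComponent_of_mem (isHomogeneous_monomial r rfl)]
    split_ifs with h
    · rw [MvPolynomial.eval_monomial]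
    · rw [map_zero]

theorem natDegree_line_le (u : σ → K) (q : MvPolynomial σ K) :
    (line u q).natDegree ≤ q.totalDegree := by
  rw [Polynomial.natDegree_le_iff_coeff_eq_zero]
  intro N hN
  rw [coeff_line, homogeneousComponent_eq_zero N q hN, map_zero]

theorem eval_zero_comp_line (u : σ → K) :
    (Polynomial.evalRingHom (0 : K)).comp (line u).toRingHom = MvPolynomial.constantCoeff := by
  refine RingHom.ext fun q => ?_
  show (line u q).eval 0 = _
  rw [← Polynomial.coeff_zero_eq_eval_zero, coeff_line, homogeneousComponent_zero,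
    MvPolynomial.eval_C]
  rfl

/-- Truncation to degree `d`. -/
def truncDeg (d : ℕ) (q : MvPolynomial σ K) : MvPolynomial σ K :=
  ∑ j ∈ Finset.range (d + 1), homogeneousComponent j q

theorem coeff_truncDeg (d : ℕ) (q : MvPolynomial σ K) (s : σ →₀ ℕ) :
    (truncDeg d q).coeff s = if s.degree ≤ d then q.coeff s else 0 := by
  simp only [truncDeg, MvPolynomial.coeff_sum, coeff_homogeneousComponent, Finset.sum_ite_eq,
    Finset.mem_range, Nat.lt_succ_iff]

theorem totalDegree_truncDeg_le (d : ℕ) (q : MvPolynomial σ K) :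
    (truncDeg d q).totalDegree ≤ d := by
  refine Finset.sup_le fun s hs => ?_
  rw [MvPolynomial.mem_support_iff, coeff_truncDeg] at hs
  split_ifs at hs with h
  · rwa [Finsupp.degree_apply] at h
  · exact absurd rfl hs

theorem sub_truncDeg_mem {d M : ℕ} {q : MvPolynomial σ K}
    (h : ∀ j, d < j → j < M → homogeneousComponent j q = 0) :
    q - truncDeg d q ∈ idealOfVars σ K ^ M := by
  rw [mem_pow_idealOfVars_iff']
  intro s hs
  rw [MvPolynomial.coeff_sub, coeff_truncDeg]
  split_ifs with hd
  · rw [sub_self]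
  · have := congrArg (MvPolynomial.coeff s) (h _ (not_le.1 hd) hs)
    rw [coeff_homogeneousComponent, if_pos rfl, MvPolynomial.coeff_zero] at this
    rw [this, sub_zero]

theorem eq_zero_of_mem_pow {M : ℕ} {q : MvPolynomial σ K} (h : q ∈ idealOfVars σ K ^ M)
    (hq : q.totalDegree < M) : q = 0 := by
  ext s
  rw [MvPolynomial.coeff_zero]
  rcases lt_or_ge s.degree M with hs | hs
  · exact (mem_pow_idealOfVars_iff' M q).1 h s hs
  · by_contra hne
    have h1 := MvPolynomial.le_totalDegree (MvPolynomial.mem_support_iff.2 hne)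
    rw [Finsupp.degree_apply] at hs
    exact absurd (hs.trans h1) (not_le.2 hq)

variable [IsAlgClosed K]

/-- **Effective Bertini.** -/
theorem exists_bertini {P : (MvPolynomial σ K)[X]} {d : ℕ} (hmonic : P.Monic)
    (hdeg : P.natDegree = d) (htot : ∀ i, (P.coeff i).totalDegree ≤ d) (hirr : Irreducible P)
    (hsep : (P.map MvPolynomial.constantCoeff).Separable) :
    ∃ R : MvPolynomial σ K, R ≠ 0 ∧ R.totalDegree ≤ 2 ^ d * (2 * d) ∧
      ∀ u : σ → K, MvPolynomial.eval u R ≠ 0 → Irreducible (P.map (line u).toRingHom) := by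
  classical
  have hd : 0 < d := by
    refine Nat.pos_of_ne_zero fun e => hirr.not_isUnit ?_
    rw [Polynomial.eq_one_of_monic_natDegree_zero hmonic (hdeg.trans e)]
    exact isUnit_one
  obtain ⟨M, hM⟩ : ∃ M, M = 2 * d + 1 := ⟨_, rfl⟩
  obtain ⟨S₀, hS₀⟩ : ∃ S₀, S₀ = (P.map MvPolynomial.constantCoeff).roots.toFinset := ⟨_, rfl⟩
  have hP0 : (P.map MvPolynomial.constantCoeff).Monic := hmonic.map _
  have hS₀card : S₀.card = d := by
    rw [hS₀, Multiset.toFinset_card_of_nodup (Polynomial.nodup_roots hsep),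
      ← (IsAlgClosed.splits _).natDegree_eq_card_roots, hmonic.natDegree_map, hdeg]
  have hS₀root : ∀ c ∈ S₀, (P.map MvPolynomial.constantCoeff).eval c = 0 := fun c hc => by
    rw [hS₀, Multiset.mem_toFinset, Polynomial.mem_roots hP0.ne_zero] at hc
    exact hc
  -- the quotient by the power of the ideal of the variables
  obtain ⟨J, hJ⟩ : ∃ J, J = idealOfVars σ K ^ M := ⟨_, rfl⟩
  have hker : ∀ q ∈ J, MvPolynomial.constantCoeff q = 0 := fun q hq => by
    rw [hJ, mem_pow_idealOfVars_iff'] at hq
    exact hq 0 (by rw [map_zero]; omega)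
  haveI : Nontrivial (MvPolynomial σ K ⧸ J) :=
    Ideal.Quotient.nontrivial_iff.2 fun e => one_ne_zero (α := K) (by
      simpa using hker 1 (e ▸ Submodule.mem_top))
  obtain ⟨mk, hmk⟩ : ∃ mk, mk = Ideal.Quotient.mk J := ⟨_, rfl⟩
  obtain ⟨ε, hε⟩ : ∃ ε : MvPolynomial σ K ⧸ J →+* K, ∀ q, ε (mk q) = MvPolynomial.constantCoeff q :=
    ⟨Ideal.Quotient.lift J _ hker, fun q => by rw [hmk, Ideal.Quotient.lift_mk]⟩
  have hnil : ∀ q, MvPolynomial.constantCoeff q = 0 → IsNilpotent (mk q) := fun q hq => by
    refine ⟨M, ?_⟩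
    rw [← map_pow, hmk, Ideal.Quotient.eq_zero_iff_mem, hJ]
    refine Ideal.pow_mem_pow ?_ M
    rw [← pow_one (idealOfVars σ K), mem_pow_idealOfVars_iff']
    intro s hs
    rw [Nat.lt_one_iff, Finsupp.degree_eq_zero_iff] at hs
    rw [hs]
    exact hq
  have hunit : ∀ y, ε y ≠ 0 → IsUnit y := fun y hy => by
    obtain ⟨q, rfl⟩ : ∃ q, mk q = y := hmk ▸ Ideal.Quotient.mk_surjective y
    rw [hε] at hy
    have h1 := hnil (q - MvPolynomial.C (MvPolynomial.constantCoeff q)) (by simp)
    have h2 : IsUnit (mk (MvPolynomial.C (MvPolynomial.constantCoeff q))) :=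
      (Ne.isUnit hy).map (mk.comp MvPolynomial.C)
    have h3 := h1.isUnit_add_left_of_commute h2 (Commute.all _ _)
    rwa [← map_add, add_sub_cancel] at h3
  -- the roots
  have hroots : ∀ c ∈ S₀, ∃ r, (P.map mk).eval r = 0 ∧ ε r = c := by
    intro c hc
    have hev : ∀ Q : (MvPolynomial σ K)[X],
        MvPolynomial.constantCoeff (Q.eval (MvPolynomial.C c)) =
          (Q.map MvPolynomial.constantCoeff).eval c := fun Q => by
      rw [Polynomial.eval_map, ← Polynomial.coe_evalRingHom, Polynomial.coe_evalRingHom,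
        ← Polynomial.eval₂_at_apply, MvPolynomial.constantCoeff_C]
    obtain ⟨r, ⟨hr1, hr2⟩, -⟩ := Polynomial.existsUnique_nilpotent_sub_and_aeval_eq_zero
      (P := P.map mk) (x := mk (MvPolynomial.C c))
      (by
        rw [Polynomial.coe_aeval_eq_eval, Polynomial.eval_map, Polynomial.eval₂_at_apply]
        exact hnil _ (by rw [hev, hS₀root c hc]))
      (by
        rw [Polynomial.coe_aeval_eq_eval, Polynomial.derivative_map, Polynomial.eval_map,
          Polynomial.eval₂_at_apply]
        refine hunit _ ?_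
        rw [hε, hev, ← Polynomial.derivative_map]
        simpa using hsep.aeval_derivative_ne_zero (x := c) (by simpa using hS₀root c hc))
    refine ⟨r, hr2, ?_⟩
    have h := (hr1.map ε).eq_zero
    rw [map_sub, hε, MvPolynomial.constantCoeff_C, sub_eq_zero] at h
    exact h.symm
  choose! r hr hεr using hroots
  have hsurj : Function.Surjective mk := hmk ▸ Ideal.Quotient.mk_surjective
  choose ρ hρ using fun c => hsurj (r c)
  have hrunit : ∀ c ∈ S₀, ∀ c' ∈ S₀, c ≠ c' → IsUnit (r c - r c') := fun c hc c' hc' hne =>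
    hunit _ (by rw [map_sub, hεr c hc, hεr c' hc']; exact sub_ne_zero.2 hne)
  obtain ⟨Gs, hGs⟩ : ∃ Gs : Finset K → (MvPolynomial σ K)[X],
      ∀ S, Gs S = ∏ c ∈ S, (Polynomial.X - Polynomial.C (ρ c)) := ⟨_, fun _ => rfl⟩
  have hGsm : ∀ S, (Gs S).Monic := fun S =>
    hGs S ▸ Polynomial.monic_prod_of_monic _ _ fun c _ => Polynomial.monic_X_sub_C _
  have hGsd : ∀ S, (Gs S).natDegree = S.card := fun S => by
    rw [hGs, Polynomial.natDegree_prod_of_monic _ _ fun c _ => Polynomial.monic_X_sub_C _]
    simp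
  have hGsmap : ∀ S, (Gs S).map mk = ∏ c ∈ S, (Polynomial.X - Polynomial.C (r c)) := fun S => by
    simp [hGs, Polynomial.map_prod, hρ]
  have hPprod : P.map mk = ∏ c ∈ S₀, (Polynomial.X - Polynomial.C (r c)) :=
    eq_prod_of_roots S₀ r _ (hmonic.map _) (by rw [hmonic.natDegree_map, hdeg, hS₀card]) hr hrunit
  -- a form witnessing that a proper subset is no factor
  have hchoice : ∀ S ∈ S₀.powerset.filter fun S => S.Nonempty ∧ S ≠ S₀,
      ∃ Rs : MvPolynomial σ K, Rs ≠ 0 ∧ Rs.totalDegree ≤ 2 * d ∧ ∀ u : σ → K,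
        (∀ i j, d < j → j < M →
          MvPolynomial.eval u (homogeneousComponent j ((Gs S).coeff i)) = 0 ∧
          MvPolynomial.eval u (homogeneousComponent j ((Gs (S₀ \ S)).coeff i)) = 0) →
        MvPolynomial.eval u Rs = 0 := by
    intro S hS
    rw [Finset.mem_filter, Finset.mem_powerset] at hS
    by_contra hno
    push Not at hno
    have hvan : ∀ i j, d < j → j < M → homogeneousComponent j ((Gs S).coeff i) = 0 ∧
        homogeneousComponent j ((Gs (S₀ \ S)).coeff i) = 0 := by
      intro i j hj hjM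
      constructor <;>
      · by_contra hne
        obtain ⟨u, hu, hu'⟩ := hno _ hne
          ((homogeneousComponent_isHomogeneous j _).totalDegree_le.trans (by omega))
        first
          | exact hu' (hu i j hj hjM).1
          | exact hu' (hu i j hj hjM).2
    obtain ⟨tr, htr⟩ : ∃ tr : Finset K → (MvPolynomial σ K)[X], ∀ T, tr T =
        ∑ i ∈ Finset.range (T.card + 1),
          Polynomial.C (truncDeg d ((Gs T).coeff i)) * Polynomial.X ^ i := ⟨_, fun _ => rfl⟩
    have htrc : ∀ T i, (tr T).coeff i = if i ≤ T.card then truncDeg d ((Gs T).coeff i) else 0 :=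
      fun T i => by
        rw [htr, Polynomial.finsetSum_coeff]
        simp only [Polynomial.coeff_C_mul_X_pow, Finset.sum_ite_eq, Finset.mem_range,
          Nat.lt_succ_iff]
    have htrm : ∀ T, (tr T).Monic ∧ (tr T).natDegree = T.card := fun T => by
      have h1 : (tr T).coeff T.card = 1 := by
        have h2 : (Gs T).coeff T.card = 1 := hGsd T ▸ (hGsm T).coeff_natDegree
        rw [htrc, if_pos le_rfl, h2]
        ext s
        rw [coeff_truncDeg]
        split_ifs with h3
        · rfl
        · rw [MvPolynomial.coeff_one, if_neg]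
          rintro rfl
          simp at h3
      have hle : (tr T).natDegree ≤ T.card := Polynomial.natDegree_le_iff_coeff_eq_zero.2
        fun N hN => by rw [htrc, if_neg (not_le.2 hN)]
      have heq : (tr T).natDegree = T.card :=
        le_antisymm hle (Polynomial.le_natDegree_of_ne_zero (by rw [h1]; exact one_ne_zero))
      exact ⟨by rw [Polynomial.Monic, Polynomial.leadingCoeff, heq, h1], heq⟩
    have htrmap : ∀ T, (∀ i j, d < j → j < M → homogeneousComponent j ((Gs T).coeff i) = 0) →
        (tr T).map mk = ∏ c ∈ T, (Polynomial.X - Polynomial.C (r c)) := fun T hT => by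
      rw [← hGsmap]
      ext i
      rw [Polynomial.coeff_map, Polynomial.coeff_map, htrc]
      split_ifs with hi
      · rw [hmk, Ideal.Quotient.eq, hJ, ← neg_sub]
        exact neg_mem (sub_truncDeg_mem (hT i))
      · rw [Polynomial.coeff_eq_zero_of_natDegree_lt (p := Gs T) (by rw [hGsd]; omega)]
    have heq : tr S * tr (S₀ \ S) = P := by
      rw [← sub_eq_zero]
      ext i : 1
      rw [Polynomial.coeff_zero]
      refine eq_zero_of_mem_pow (M := M) ?_ ?_
      · rw [← hJ, ← Ideal.Quotient.eq_zero_iff_mem, ← hmk, ← Polynomial.coeff_map,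
          Polynomial.map_sub, Polynomial.map_mul, htrmap S fun i j h h' => (hvan i j h h').1,
          htrmap (S₀ \ S) fun i j h h' => (hvan i j h h').2, hPprod,
          ← Finset.prod_union Finset.disjoint_sdiff, Finset.union_sdiff_of_subset hS.1, sub_self,
          Polynomial.coeff_zero]
      · have h1 : ∀ T i, ((tr T).coeff i).totalDegree ≤ d := fun T i => by
          rw [htrc]; split_ifs
          · exact totalDegree_truncDeg_le _ _
          · simp
        rw [Polynomial.coeff_sub, Polynomial.coeff_mul]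
        refine lt_of_le_of_lt ((MvPolynomial.totalDegree_sub _ _).trans (max_le
          ((MvPolynomial.totalDegree_finsetSum _ _).trans (Finset.sup_le fun x _ =>
            (MvPolynomial.totalDegree_mul _ _).trans (add_le_add (h1 _ _) (h1 _ _))))
          ((htot i).trans (Nat.le_add_right d d)))) (by omega)
    have hc1 : 0 < S.card := hS.2.1.card_pos
    have hc2 : S.card < S₀.card :=
      Finset.card_lt_card (Finset.ssubset_iff_subset_ne.2 ⟨hS.1, hS.2.2⟩)
    rcases hirr.isUnit_or_isUnit heq.symm with h | h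
    · rw [(htrm S).1.eq_one_of_isUnit h, eq_comm] at heq
      have := (htrm (S₀ \ S)).2
      rw [← one_mul (tr (S₀ \ S)), ← heq, hdeg, Finset.card_sdiff_of_subset hS.1] at this
      omega
    · rw [(htrm (S₀ \ S)).1.eq_one_of_isUnit h, mul_one] at heq
      have := (htrm S).2
      rw [heq, hdeg] at this
      omega
  choose! Rs hRs0 hRsd hRs using hchoice
  refine ⟨∏ S ∈ S₀.powerset.filter (fun S => S.Nonempty ∧ S ≠ S₀), Rs S,
    Finset.prod_ne_zero_iff.2 hRs0, ?_, fun u hu => ?_⟩
  · refine (MvPolynomial.totalDegree_finsetProd _ _).trans ?_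
    refine (Finset.sum_le_card_nsmul _ _ _ hRsd).trans ?_
    rw [smul_eq_mul]
    refine Nat.mul_le_mul_right _ ((Finset.card_filter_le _ _).trans ?_)
    rw [Finset.card_powerset, hS₀card]
  obtain ⟨Pu, hPu⟩ : ∃ Pu, Pu = P.map (line u).toRingHom := ⟨_, rfl⟩
  rw [← hPu]
  have hPum : Pu.Monic := hPu ▸ hmonic.map _
  have hPud : Pu.natDegree = d := by rw [hPu, hmonic.natDegree_map, hdeg]
  refine hPum.irreducible_iff_natDegree.2 ⟨fun e => ?_, fun g h hg hh hgh => ?_⟩
  · rw [e, Polynomial.natDegree_one] at hPud; omega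
  by_contra hno
  push Not at hno
  -- the quotient of `K[T]`
  obtain ⟨I, hI⟩ : ∃ I : Ideal K[X], I = Ideal.span {Polynomial.X ^ M} := ⟨_, rfl⟩
  have hIker : ∀ y ∈ I, y.eval 0 = 0 := fun y hy => by
    rw [hI, Ideal.mem_span_singleton, Polynomial.X_pow_dvd_iff] at hy
    rw [← Polynomial.coeff_zero_eq_eval_zero]
    exact hy 0 (by omega)
  haveI : Nontrivial (K[X] ⧸ I) :=
    Ideal.Quotient.nontrivial_iff.2 fun e => one_ne_zero (α := K) (by
      simpa using hIker 1 (e ▸ Submodule.mem_top))
  obtain ⟨π, hπ⟩ : ∃ π, π = Ideal.Quotient.mk I := ⟨_, rfl⟩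
  obtain ⟨Ψ, hΨ⟩ : ∃ Ψ : MvPolynomial σ K ⧸ J →+* K[X] ⧸ I, ∀ q, Ψ (mk q) = π (line u q) := by
    refine ⟨Ideal.Quotient.lift J (π.comp (line u).toRingHom) fun q hq => ?_, fun q => by
      rw [hmk, Ideal.Quotient.lift_mk]; rfl⟩
    rw [RingHom.comp_apply, hπ, Ideal.Quotient.eq_zero_iff_mem, hI, Ideal.mem_span_singleton,
      Polynomial.X_pow_dvd_iff]
    intro j hj
    rw [hJ, mem_pow_idealOfVars_iff'] at hq
    show (line u q).coeff j = 0
    rw [coeff_line, show homogeneousComponent j q = 0 from MvPolynomial.ext _ _ fun s => by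
      rw [coeff_homogeneousComponent, MvPolynomial.coeff_zero]
      split_ifs with e
      · exact hq s (by omega)
      · rfl, map_zero]
  obtain ⟨e₀, he₀⟩ : ∃ e₀ : K[X] ⧸ I →+* K, ∀ y, e₀ (π y) = y.eval 0 :=
    ⟨Ideal.Quotient.lift I (Polynomial.evalRingHom 0) fun y hy => hIker y hy, fun y => by
      subst hπ; rfl⟩
  have hπsurj : Function.Surjective π := hπ ▸ Ideal.Quotient.mk_surjective
  have hunitB : ∀ y, e₀ y ≠ 0 → IsUnit y := fun y hy => by
    obtain ⟨w, rfl⟩ := hπsurj y
    rw [he₀] at hy
    have h1 : IsNilpotent (π (w - Polynomial.C (w.eval 0))) := by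
      refine ⟨M, ?_⟩
      rw [← map_pow, hπ, Ideal.Quotient.eq_zero_iff_mem, hI, Ideal.mem_span_singleton]
      refine pow_dvd_pow_of_dvd ?_ M
      rw [Polynomial.X_dvd_iff, Polynomial.coeff_sub, Polynomial.coeff_C_zero,
        Polynomial.coeff_zero_eq_eval_zero, sub_self]
    have h2 : IsUnit (π (Polynomial.C (w.eval 0))) :=
      (Ne.isUnit hy).map (π.comp Polynomial.C)
    have h3 := h1.isUnit_add_left_of_commute h2 (Commute.all _ _)
    rwa [← map_add, add_sub_cancel] at h3
  have hsections : ∀ c ∈ S₀, (Pu.map π).eval (Ψ (r c)) = 0 := fun c hc => by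
    have hcomp : π.comp (line u).toRingHom = Ψ.comp mk := RingHom.ext fun q => (hΨ q).symm
    rw [hPu, Polynomial.map_map, hcomp, ← Polynomial.map_map, Polynomial.eval_map,
      Polynomial.eval₂_at_apply, hr c hc, map_zero]
  have hPu0 : Pu.map (Polynomial.evalRingHom 0) = P.map MvPolynomial.constantCoeff := by
    rw [hPu, Polynomial.map_map, eval_zero_comp_line]
  -- a monic factor of the section is the product over the roots it carries
  have key : ∀ g h : K[X][X], g.Monic → h.Monic → g * h = Pu →
      g.natDegree = (S₀.filter fun c => (g.map (Polynomial.evalRingHom 0)).eval c = 0).card ∧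
      ∀ i j, d < j → j < M → MvPolynomial.eval u (homogeneousComponent j
        ((Gs (S₀.filter fun c => (g.map (Polynomial.evalRingHom 0)).eval c = 0)).coeff i)) = 0 := by
    intro g h hg hh hgh
    obtain ⟨g0, hg0⟩ : ∃ g0, g0 = g.map (Polynomial.evalRingHom 0) := ⟨_, rfl⟩
    obtain ⟨h0, hh0⟩ : ∃ h0, h0 = h.map (Polynomial.evalRingHom 0) := ⟨_, rfl⟩
    rw [← hg0]
    have hgh0 : g0 * h0 = P.map MvPolynomial.constantCoeff := by
      rw [hg0, hh0, ← Polynomial.map_mul, hgh, hPu0]
    have hg0sep : g0.Separable := Polynomial.Separable.of_mul_left (hgh0 ▸ hsep)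
    have hg0m : g0.Monic := hg0 ▸ hg.map _
    have hfilter : S₀.filter (fun c => g0.eval c = 0) = g0.roots.toFinset := by
      ext c
      rw [Finset.mem_filter, Multiset.mem_toFinset, Polynomial.mem_roots hg0m.ne_zero,
        Polynomial.IsRoot, and_iff_right_iff_imp]
      intro hc
      rw [hS₀, Multiset.mem_toFinset, Polynomial.mem_roots hP0.ne_zero, Polynomial.IsRoot, ← hgh0,
        Polynomial.eval_mul, hc, zero_mul]
    have hcard : g.natDegree = (S₀.filter fun c => g0.eval c = 0).card := by
      rw [hfilter, Multiset.toFinset_card_of_nodup (Polynomial.nodup_roots hg0sep),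
        ← (IsAlgClosed.splits g0).natDegree_eq_card_roots, hg0, hg.natDegree_map]
    refine ⟨hcard, ?_⟩
    obtain ⟨Sg, hSg⟩ : ∃ Sg, Sg = S₀.filter fun c => g0.eval c = 0 := ⟨_, rfl⟩
    rw [← hSg] at hcard ⊢
    have hε' : ∀ c ∈ S₀, e₀ (Ψ (r c)) = c := fun c hc => by
      rw [← hρ, hΨ, he₀]
      show ((Polynomial.evalRingHom 0).comp (line u).toRingHom) (ρ c) = c
      rw [eval_zero_comp_line, ← hε, hρ, hεr c hc]
    have he : ∀ (Q : K[X][X]) (c : K), c ∈ S₀ →
        e₀ ((Q.map π).eval (Ψ (r c))) = (Q.map (Polynomial.evalRingHom 0)).eval c := fun Q c hc => by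
      rw [← Polynomial.eval₂_at_apply, hε' c hc, ← Polynomial.eval_map, Polynomial.map_map]
      exact congrArg (fun φ => (Q.map φ).eval c) (RingHom.ext fun y => he₀ y)
    have hroot : ∀ c ∈ Sg, (g.map π).eval (Ψ (r c)) = 0 := fun c hc => by
      rw [hSg, Finset.mem_filter] at hc
      have hprod := hsections c hc.1
      rw [← hgh, Polynomial.map_mul, Polynomial.eval_mul] at hprod
      refine (hunitB _ ?_).mul_left_eq_zero.1 hprod
      rw [he _ _ hc.1, ← hh0]
      intro hh0c
      have hcop : IsCoprime g0 h0 := Polynomial.Separable.isCoprime (hgh0 ▸ hsep)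
      obtain ⟨a, b, hab⟩ := hcop
      have := congrArg (Polynomial.eval c) hab
      rw [Polynomial.eval_add, Polynomial.eval_mul, Polynomial.eval_mul, hc.2, hh0c, mul_zero,
        mul_zero, add_zero, Polynomial.eval_one] at this
      exact zero_ne_one this
    have hSgsub : Sg ⊆ S₀ := hSg ▸ Finset.filter_subset _ _
    have hgprod : g.map π = ∏ c ∈ Sg, (Polynomial.X - Polynomial.C (Ψ (r c))) :=
      eq_prod_of_roots Sg (fun c => Ψ (r c)) _ (hg.map _) (by rw [hg.natDegree_map, hcard]) hroot
        fun c hc c' hc' hne => by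
          rw [← map_sub]; exact (hrunit c (hSgsub hc) c' (hSgsub hc') hne).map Ψ
    intro i j hj hjM
    have hcoef := congrArg (fun Q => Q.coeff i) (show g.map π = ((Gs Sg).map (line u).toRingHom).map π by
      rw [hgprod, hGs, Polynomial.map_prod, Polynomial.map_prod]
      refine Finset.prod_congr rfl fun c _ => ?_
      rw [Polynomial.map_sub, Polynomial.map_X, Polynomial.map_C, Polynomial.map_sub,
        Polynomial.map_X, Polynomial.map_C, ← hρ c, hΨ]
      rfl)
    simp only [Polynomial.coeff_map, hπ, Ideal.Quotient.eq, hI, Ideal.mem_span_singleton,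
      Polynomial.X_pow_dvd_iff, Polynomial.coeff_sub] at hcoef
    have h1 := hcoef j hjM
    rw [sub_eq_zero] at h1
    show MvPolynomial.eval u _ = 0
    rw [← coeff_line]
    refine h1.symm.trans ?_
    -- the coefficients of a factor have degree at most `d`
    have hswap : ∀ n m, ((Polynomial.Bivariate.swap g).coeff m).coeff n = (g.coeff n).coeff m :=
      CurveRH.coeff_coeff_swap g
    have hle : (Polynomial.Bivariate.swap g).natDegree ≤ d := by
      have hmul : Polynomial.Bivariate.swap g * Polynomial.Bivariate.swap h =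
          Polynomial.Bivariate.swap Pu := by rw [← map_mul, hgh]
      have hg' : Polynomial.Bivariate.swap g ≠ 0 := fun e => hg.ne_zero
        ((Polynomial.Bivariate.swap (R := K)).injective (e.trans (map_zero _).symm))
      have hh' : Polynomial.Bivariate.swap h ≠ 0 := fun e => hh.ne_zero
        ((Polynomial.Bivariate.swap (R := K)).injective (e.trans (map_zero _).symm))
      have h2 : (Polynomial.Bivariate.swap Pu).natDegree ≤ d :=
        Polynomial.natDegree_le_iff_coeff_eq_zero.2 fun N hN => Polynomial.ext fun n => by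
          rw [CurveRH.coeff_coeff_swap, Polynomial.coeff_zero, hPu, Polynomial.coeff_map]
          exact Polynomial.coeff_eq_zero_of_natDegree_lt
            (lt_of_le_of_lt ((natDegree_line_le u _).trans (htot n)) hN)
      rw [← hmul, Polynomial.natDegree_mul hg' hh'] at h2
      omega
    rw [← hswap, Polynomial.coeff_eq_zero_of_natDegree_lt (lt_of_le_of_lt hle hj),
      Polynomial.coeff_zero]
  obtain ⟨hcard, hvg⟩ := key g h hg hh hgh
  obtain ⟨-, hvh⟩ := key h g hh hg (by rw [mul_comm, hgh])
  obtain ⟨Sg, hSg⟩ : ∃ Sg, Sg = S₀.filter fun c => (g.map (Polynomial.evalRingHom 0)).eval c = 0 :=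
    ⟨_, rfl⟩
  rw [← hSg] at hcard hvg
  have hsum : g.natDegree + h.natDegree = d := by rw [← hg.natDegree_mul hh, hgh, hPud]
  have hcompl : (S₀.filter fun c => (h.map (Polynomial.evalRingHom 0)).eval c = 0) = S₀ \ Sg := by
    ext c
    simp only [hSg, Finset.mem_filter, Finset.mem_sdiff, not_and]
    have hprod : (g.map (Polynomial.evalRingHom 0)) * (h.map (Polynomial.evalRingHom 0)) =
        P.map MvPolynomial.constantCoeff := by rw [← Polynomial.map_mul, hgh, hPu0]
    refine ⟨fun ⟨hc, hhc⟩ => ⟨hc, fun _ hgc => ?_⟩, fun ⟨hc, hne⟩ => ⟨hc, ?_⟩⟩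
    · obtain ⟨a, b, hab⟩ := Polynomial.Separable.isCoprime (hprod ▸ hsep)
      have := congrArg (Polynomial.eval c) hab
      rw [Polynomial.eval_add, Polynomial.eval_mul, Polynomial.eval_mul, hgc, hhc, mul_zero,
        mul_zero, add_zero, Polynomial.eval_one] at this
      exact zero_ne_one this
    · have := hS₀root c hc
      rw [← hprod, Polynomial.eval_mul, mul_eq_zero] at this
      exact this.resolve_left (hne hc)
  rw [hcompl] at hvh
  have hmem : Sg ∈ S₀.powerset.filter fun S => S.Nonempty ∧ S ≠ S₀ := by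
    rw [Finset.mem_filter, Finset.mem_powerset]
    refine ⟨hSg ▸ Finset.filter_subset _ _, Finset.card_pos.1 (by omega), fun e => ?_⟩
    rw [e, hS₀card] at hcard
    omega
  refine hu ?_
  rw [map_prod]
  exact Finset.prod_eq_zero hmem (hRs Sg hmem u fun i j hj hjM => ⟨hvg i j hj hjM, hvh i j hj hjM⟩)

end FA.LangWeilAll

end
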