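import Fermat.Agent.LangWeilAll.Normalise

/-!
# Consequences of the theorem of Lang and Weil

Common zeros with a polynomial prime to `f` are `O (q ^ (r - 1))`, so there are zeros off such a
hypersurface and nonsingular zeros over all large fields; with the theorem of Ostrowski and
Noether in any number of variables this gives points modulo and in `ℤ_p` for all large primes.
-/

set_option autoImplicit false
set_option linter.style.haveILetI false

noncomputable section

namespace FA.LangWeilAll

open MvPolynomial Fermat.Agent.AxKochen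
open FA.AxFiniteFields (member eventually_natCast_ne_zero eventually_irreducible_member
  irreducible_of_irreducible_map irreducible_map_iff)

section Finite

variable {k : Type*} [Field k] {r : ℕ}

theorem totalDegree_pderiv_lt {σ : Type*} {f : MvPolynomial σ k} {i : σ}
    (h : pderiv i f ≠ 0) : (pderiv i f).totalDegree < f.totalDegree := by
  classical
  obtain ⟨s, hs, he⟩ := Finset.exists_mem_eq_sup (pderiv i f).support (support_nonempty.2 h)
    fun s => s.sum fun _ n => n
  have hs' : s + Finsupp.single i 1 ∈ f.support := mem_support_iff.2 fun e =>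
    mem_support_iff.1 hs (by rw [coeff_pderiv, e, zero_mul])
  have h1 := le_totalDegree hs'
  rw [Finsupp.sum_add_index' (fun _ => rfl) (fun _ _ _ => rfl), Finsupp.sum_single_index rfl] at h1
  rw [totalDegree, he]
  omega

variable [Finite k]

/-- **Common zeros.** -/
theorem natCard_common_mul_le {f g : MvPolynomial (Fin (r + 1)) k} {d d' : ℕ}
    (hd : f.totalDegree ≤ d) (hd' : g.totalDegree ≤ d') (hf : Irreducible f) (hfg : ¬f ∣ g) :
    Nat.card {x : Fin (r + 1) → k // eval x f = 0 ∧ eval x g = 0} * Nat.card k ≤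
      (d + d') ^ 3 * Nat.card k ^ r := by
  classical
  have := Fintype.ofFinite k
  obtain ⟨e, he⟩ : ∃ e, e = f.totalDegree := ⟨_, rfl⟩
  rw [← he] at hd
  have he0 : e ≠ 0 := fun h => by
    rw [he, totalDegree_eq_zero_iff_eq_C] at h
    refine hf.not_isUnit (h ▸ (Ne.isUnit fun h0 => hf.ne_zero ?_).map C)
    rw [h, h0, map_zero]
  have hdd : d * d ≤ (d + d') ^ 2 := by rw [sq]; exact Nat.mul_le_mul (by omega) (by omega)
  by_cases hq : e < Nat.card k
  · have htop0 := homogeneousComponent_totalDegree_ne_zero hf.ne_zero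
    obtain ⟨v, hv⟩ := exists_eval_ne_zero htop0
      (lt_of_le_of_lt ((homogeneousComponent_isHomogeneous _ f).totalDegree_le) (by rw [← he]; omega))
    rw [← he] at hv
    have hv0 : v ≠ 0 := fun h => hv (by
      rw [h, eval_zero, constantCoeff_eq, coeff_homogeneousComponent, if_neg]
      rw [map_zero]; exact Ne.symm he0)
    obtain ⟨j, hj⟩ := Function.ne_iff.1 hv0
    have hw : v j * (v j)⁻¹ = 1 := mul_inv_cancel₀ hj
    obtain ⟨a, ha⟩ : ∃ a, a = (eval v (homogeneousComponent e f))⁻¹ := ⟨_, rfl⟩
    have ha0 : a ≠ 0 := ha ▸ inv_ne_zero hv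
    obtain ⟨F, hF⟩ : ∃ F, F = C a * f := ⟨_, rfl⟩
    have hFdeg : F.totalDegree = e := by
      rw [hF, he, totalDegree, totalDegree, ← smul_eq_C_mul, support_smul_eq ha0]
    have hFtop : eval v (homogeneousComponent F.totalDegree F) = 1 := by
      rw [hFdeg, hF, homogeneousComponent_C_mul, map_mul, eval_C, ha, inv_mul_cancel₀ hv]
    have hFirr : Irreducible F := hF ▸ (irreducible_isUnit_mul ((Ne.isUnit ha0).map C)).2 hf
    obtain ⟨hPm, hPd⟩ := monic_shear hw (0 : Fin r → k) hFtop
    obtain ⟨P, hP⟩ : ∃ P, P = finSuccEquiv k r (shear v j _ hw 0 F) := ⟨_, rfl⟩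
    obtain ⟨Q, hQ⟩ : ∃ Q, Q = finSuccEquiv k r (shear v j _ hw 0 g) := ⟨_, rfl⟩
    rw [← hP] at hPm hPd
    rw [hFdeg] at hPd
    have hPQ : ¬P ∣ Q := by
      rw [hP, hQ, map_dvd_iff, map_dvd_iff, hF, ((Ne.isUnit ha0).map C).mul_left_dvd]
      exact hfg
    obtain ⟨res, hres⟩ : ∃ res, res = Polynomial.resultant P Q := ⟨_, rfl⟩
    have hres0 : res ≠ 0 := by
      obtain ⟨L, _, _, _, hL⟩ : ∃ (L : Type _) (_ : Field L)
          (_ : Algebra (MvPolynomial (Fin r) k) L)
          (_ : IsFractionRing (MvPolynomial (Fin r) k) L), True :=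
        ⟨FractionRing (MvPolynomial (Fin r) k), inferInstance, inferInstance, inferInstance,
          trivial⟩
      have hinj := IsFractionRing.injective (MvPolynomial (Fin r) k) L
      have hirr' := (hPm.irreducible_iff_irreducible_map_fraction_map (K := L)).1
        (hP ▸ (MulEquiv.irreducible_iff (finSuccEquiv k r)).2
          ((MulEquiv.irreducible_iff (shear v j _ hw 0)).2 hFirr))
      have h2 := Polynomial.resultant_ne_zero _ _ (hirr'.coprime_iff_not_dvd.2
        fun h => hPQ ((Polynomial.map_dvd_map _ hinj hPm).1 h) : IsCoprime _ (Q.map _))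
      rw [Polynomial.resultant_map_map, Polynomial.natDegree_map_eq_of_injective hinj,
        Polynomial.natDegree_map_eq_of_injective hinj] at h2
      intro h
      rw [hres] at h
      exact h2 (by rw [h, map_zero])
    have hcP : ∀ i, (P.coeff i).totalDegree ≤ d + d' := fun i => hP ▸
      ((totalDegree_coeff_finSuccEquiv_le _ i).trans (totalDegree_shear_le v j _ hw 0 F)).trans
        (by omega)
    have hgd : (shear v j _ hw 0 g).totalDegree ≤ d' := (totalDegree_shear_le v j _ hw 0 g).trans hd'
    have hcQ : ∀ i, (Q.coeff i).totalDegree ≤ d + d' := fun i => hQ ▸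
      ((totalDegree_coeff_finSuccEquiv_le _ i).trans hgd).trans (Nat.le_add_left d' d)
    have hQd : Q.natDegree ≤ d' := Polynomial.natDegree_le_iff_coeff_eq_zero.2 fun i hi =>
      by_contra fun h => by
        have := (totalDegree_coeff_finSuccEquiv_add_le _ i (hQ ▸ h)).trans hgd
        omega
    have hresd : res.totalDegree ≤ (d + d') ^ 2 := hres ▸
      (totalDegree_resultant_le hcP hcQ).trans (by rw [sq]; exact Nat.mul_le_mul_right _ (by omega))
    obtain ⟨A, B, -, -, hAB⟩ :=
      Polynomial.exists_mul_add_mul_eq_C_resultant P Q le_rfl le_rfl (Or.inl (by omega))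
    rw [← hres] at hAB
    obtain ⟨T, hT⟩ := exists_pointEquiv_shear v j _ hw (0 : Fin r → k)
    have hfib : Nat.card {y : Fin (r + 1) → k // eval y (shear v j _ hw 0 F) = 0 ∧
        eval y (shear v j _ hw 0 g) = 0} ≤ e * Nat.card {x : Fin r → k // eval x res = 0} := by
      simp only [Nat.card_eq_fintype_card, Fintype.card_subtype]
      refine Finset.card_le_mul_card_image_of_maps_to (f := Fin.tail) (fun y hy => ?_) e fun x _ => ?_
      · obtain ⟨h1, h2⟩ := (Finset.mem_filter.1 hy).2
        rw [← Fin.cons_self_tail y, eval_eq_eval_mv_eval', ← hP] at h1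
        rw [← Fin.cons_self_tail y, eval_eq_eval_mv_eval', ← hQ] at h2
        have h := congrArg (fun R => (R.map (eval (Fin.tail y))).eval (y 0)) hAB
        simp only [Polynomial.map_add, Polynomial.map_mul, Polynomial.map_C, Polynomial.eval_add,
          Polynomial.eval_mul, Polynomial.eval_C, h1, h2, mul_zero, zero_mul, add_zero] at h
        exact Finset.mem_filter.2 ⟨Finset.mem_univ _, h.symm⟩
      · refine le_trans (Finset.card_le_card_of_injOn (fun y : Fin (r + 1) → k => y 0)
          (t := (P.map (eval x)).roots.toFinset) (fun y hy => ?_) fun y hy z hz h => ?_) ?_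
        · rw [Finset.mem_coe, Finset.mem_filter, Finset.mem_filter] at hy
          rw [Finset.mem_coe, Multiset.mem_toFinset, Polynomial.mem_roots (hPm.map _).ne_zero,
            Polynomial.IsRoot, hP, ← eval_eq_eval_mv_eval', ← hy.2, Fin.cons_self_tail]
          exact hy.1.2.1
        · rw [Finset.mem_coe, Finset.mem_filter] at hy hz
          rw [← Fin.cons_self_tail y, ← Fin.cons_self_tail z, hy.2, hz.2]
          exact congrArg (fun t => (Fin.cons t x : Fin (r + 1) → k)) h
        · exact ((Multiset.toFinset_card_le _).trans (Polynomial.card_roots' _)).trans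
            (Polynomial.natDegree_map_le.trans hPd.le)
    rw [show Nat.card {x : Fin (r + 1) → k // eval x f = 0 ∧ eval x g = 0} =
      Nat.card {y : Fin (r + 1) → k // eval y (shear v j _ hw 0 F) = 0 ∧
        eval y (shear v j _ hw 0 g) = 0} from
      (Nat.card_congr (T.subtypeEquiv fun y => by
        rw [← hT, ← hT, hF, map_mul, eval_C, mul_eq_zero, or_iff_right ha0])).symm]
    calc _ ≤ e * Nat.card {x : Fin r → k // eval x res = 0} * Nat.card k :=
          Nat.mul_le_mul_right _ hfib
      _ ≤ e * ((d + d') ^ 2 * Nat.card k ^ r) := by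
          rw [mul_assoc]
          exact Nat.mul_le_mul_left _
            ((natCard_zeros_mul_le hres0).trans (Nat.mul_le_mul_right _ hresd))
      _ ≤ (d + d') ^ 3 * Nat.card k ^ r := by
          rw [← mul_assoc, pow_succ' (d + d') 2]
          exact Nat.mul_le_mul_right _ (Nat.mul_le_mul_right _ (by omega))
  · have hN : Nat.card {x : Fin (r + 1) → k // eval x f = 0 ∧ eval x g = 0} ≤
        Nat.card {x : Fin (r + 1) → k // eval x f = 0} :=
      Nat.card_le_card_of_injective (fun x => ⟨x.1, x.2.1⟩) fun x y h =>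
        Subtype.ext (by simpa using h)
    refine (Nat.mul_le_mul_right _ hN).trans ((natCard_zeros_mul_le hf.ne_zero).trans ?_)
    rw [← he, pow_succ', ← mul_assoc]
    refine Nat.mul_le_mul_right _ (le_trans (Nat.mul_le_mul hd (not_lt.1 hq |>.trans hd)) ?_)
    exact hdd.trans (Nat.pow_le_pow_right (by omega) (by omega))

/-- The size from which the hypersurface has a zero off another. -/
def pointBound (d d' : ℕ) : ℕ := (countError d + (d + d') ^ 3 + 1) ^ 2

/-- **Zeros off another hypersurface.** -/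
theorem exists_point_off {f g : MvPolynomial (Fin (r + 1)) k} {d d' : ℕ}
    (hd : f.totalDegree ≤ d) (hd' : g.totalDegree ≤ d')
    (hirr : Irreducible (f.map (algebraMap k (AlgebraicClosure k)))) (hfg : ¬f ∣ g)
    (hq : pointBound d d' ≤ Nat.card k) :
    ∃ x, eval x f = 0 ∧ eval x g ≠ 0 := by
  by_contra hno
  push Not at hno
  have h1 := natCard_common_mul_le hd hd' (irreducible_of_irreducible_map _ hirr) hfg
  rw [Nat.card_congr (Equiv.subtypeEquivRight fun x => and_iff_left_of_imp (hno x))] at h1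
  have h2 := (abs_le.1 (abs_natCard_sub_le hd hirr)).1
  have hq0 : (0 : ℝ) < Nat.card k := Nat.cast_pos.2 Nat.card_pos
  have hs : ((countError d + (d + d') ^ 3 + 1 : ℕ) : ℝ) ≤ Real.sqrt (Nat.card k) :=
    Real.le_sqrt_of_sq_le (by exact_mod_cast hq)
  obtain ⟨s, hs'⟩ : ∃ s, s = Real.sqrt (Nat.card k) := ⟨_, rfl⟩
  obtain ⟨Q, hQ⟩ : ∃ Q, Q = (Nat.card k : ℝ) ^ r := ⟨_, rfl⟩
  have hQ0 : 0 < Q := hQ ▸ pow_pos hq0 r
  rw [← hs', ← hQ] at h2
  rw [← hs'] at hs
  obtain ⟨N, hN⟩ : ∃ N, N = Nat.card {x : Fin (r + 1) → k // eval x f = 0} := ⟨_, rfl⟩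
  rw [← hN] at h1 h2
  have h1' : (N : ℝ) * Nat.card k ≤ ((d + d') ^ 3 : ℕ) * Q := by rw [hQ]; exact_mod_cast h1
  have hsq : s * s = Nat.card k := hs' ▸ Real.mul_self_sqrt hq0.le
  have hs1 : (1 : ℝ) ≤ s := le_trans (by exact_mod_cast Nat.le_add_left 1 _) hs
  have h3 : Q * s - countError d * Q ≤ (N : ℝ) * s := by
    have := mul_le_mul_of_nonneg_right h2 (by linarith : (0 : ℝ) ≤ s)
    rw [neg_mul, div_mul_cancel₀ _ (by linarith : s ≠ 0)] at this
    linarith
  rw [← hsq] at h1'
  push_cast at hs h1'
  nlinarith [mul_le_mul_of_nonneg_right h3 (by linarith : (0 : ℝ) ≤ s),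
    mul_le_mul_of_nonneg_left hs (mul_nonneg hQ0.le (by linarith : (0 : ℝ) ≤ s)),
    mul_le_mul_of_nonneg_left hs1 (mul_nonneg hQ0.le (by linarith : (0 : ℝ) ≤ s)),
    mul_le_mul_of_nonneg_left hs1
      (mul_nonneg hQ0.le (pow_nonneg (by positivity : (0 : ℝ) ≤ d + d') 3))]

/-- **Nonsingular zeros.** -/
theorem exists_nonsingular_point {f : MvPolynomial (Fin (r + 1)) k} {d : ℕ}
    (hd : f.totalDegree ≤ d)
    (hirr : Irreducible (f.map (algebraMap k (AlgebraicClosure k))))
    (hq : pointBound d d ≤ Nat.card k) :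
    ∃ x i, eval x f = 0 ∧ eval x (pderiv i f) ≠ 0 := by
  have hf := irreducible_of_irreducible_map _ hirr
  obtain ⟨i, hi⟩ := exists_pderiv_ne_zero hf
  have hlt := totalDegree_pderiv_lt hi
  obtain ⟨x, h1, h2⟩ := exists_point_off (g := pderiv i f) hd (hlt.le.trans hd) hirr
    (fun h => absurd (totalDegree_le_of_dvd_of_isDomain h hi) (not_le.2 hlt)) hq
  exact ⟨x, i, h1, h2⟩

end Finite

/-- **Ostrowski–Noether**: absolute irreducibility survives reduction modulo large primes. -/
theorem exists_irreducible_mod {σ : Type} [Finite σ] (f : MvPolynomial σ ℤ)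
    (h : Irreducible (f.map (algebraMap ℤ (AlgebraicClosure ℚ)))) :
    ∃ p₀ : ℕ, ∀ p : ℕ, ∀ [Fact p.Prime], p₀ ≤ p →
      Irreducible (f.map (Int.castRingHom (AlgebraicClosure (ZMod p)))) := by
  classical
  haveI hfact : ∀ p : Nat.Primes, Fact (p : ℕ).Prime := fun p => ⟨p.2⟩
  obtain ⟨bad, hbad⟩ : ∃ bad : Set Nat.Primes, ∀ p : Nat.Primes,
      p ∈ bad ↔ ¬Irreducible (f.map (Int.castRingHom (AlgebraicClosure (ZMod (p : ℕ))))) :=
    ⟨{p : Nat.Primes | ¬Irreducible (f.map (Int.castRingHom (AlgebraicClosure (ZMod (p : ℕ)))))},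
      fun _ => Iff.rfl⟩
  suffices hfin : bad.Finite by
    refine ⟨(hfin.toFinset.image fun p : Nat.Primes => (p : ℕ)).sup id + 1, fun p hp hle => ?_⟩
    by_contra hirr
    have hmem : (⟨p, hp.out⟩ : Nat.Primes) ∈ bad := (hbad ⟨p, hp.out⟩).2 hirr
    have := Finset.le_sup (f := id) (Finset.mem_image.2
      ⟨_, hfin.mem_toFinset.2 hmem, rfl⟩ : p ∈ hfin.toFinset.image fun p : Nat.Primes => (p : ℕ))
    simp only [id_eq] at this
    omega
  by_contra hinf
  haveI := Set.Infinite.cofinite_inf_principal_neBot hinf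
  obtain ⟨U, hU⟩ : ∃ U : Ultrafilter Nat.Primes,
      (U : Filter Nat.Primes) ≤ Filter.cofinite ⊓ Filter.principal bad :=
    ⟨Ultrafilter.of _, Ultrafilter.of_le _⟩
  obtain ⟨hUc, hUb⟩ := le_inf_iff.1 hU
  haveI : CharZero (UltraField U fun p : Nat.Primes => AlgebraicClosure (ZMod (p : ℕ))) := by
    refine ultraField_charZero fun n hn => ((eventually_natCast_ne_zero n hn).filter_mono hUc).mono
      fun p hp e => ?_
    rw [← map_natCast (algebraMap (ZMod (p : ℕ)) (AlgebraicClosure (ZMod (p : ℕ)))), map_eq_zero,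
      ZMod.natCast_eq_zero_iff] at e
    exact (p.2.coprime_iff_not_dvd.1 hp) e
  obtain ⟨F, hF⟩ : ∃ F : MvPolynomial σ (Π p : Nat.Primes, AlgebraicClosure (ZMod (p : ℕ))),
      F = f.map (Int.castRingHom _) := ⟨_, rfl⟩
  have hmem : ∀ p, member p F = f.map (Int.castRingHom _) := fun p => by
    rw [hF, member, map_map]
    exact congrArg (fun φ => map φ f) (RingHom.ext_int _ _)
  have hirr : Irreducible (F.map (umk U _)) := by
    haveI : IsAlgClosure ℚ (AlgebraicClosure ℚ) := ⟨inferInstance, by
      exact AlgebraicClosure.isAlgebraic ℚ⟩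
    let Ω := UltraField U fun p : Nat.Primes => AlgebraicClosure (ZMod (p : ℕ))
    refine irreducible_of_irreducible_map (algebraMap Ω (AlgebraicClosure Ω)) ?_
    have h1 := (irreducible_map_iff (M := AlgebraicClosure ℚ)
      ((algebraMap Ω (AlgebraicClosure Ω)).comp (Rat.castHom Ω)) (f.map (Int.castRingHom ℚ))).1 (by
        rw [map_map]
        convert h using 2
        exact congrArg _ (RingHom.ext_int _ _))
    rw [map_map] at h1
    rw [hF, map_map, map_map]
    convert h1 using 2
    exact congrArg _ (RingHom.ext_int _ _)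
  obtain ⟨p, hp, hp'⟩ := ((eventually_irreducible_member hirr).and
    (hUb (Filter.mem_principal_self bad))).exists
  rw [hmem] at hp
  exact (hbad p).1 hp' hp

/-- The derivative along one coordinate. -/
theorem derivative_aeval_update {σ : Type*} [DecidableEq σ] {R : Type*} [CommRing R] (a : σ → R) (i : σ)
    (f : MvPolynomial σ R) :
    Polynomial.derivative (MvPolynomial.aeval
        (fun j => if j = i then Polynomial.X else Polynomial.C (a j)) f) =
      MvPolynomial.aeval (fun j => if j = i then Polynomial.X else Polynomial.C (a j))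
        (pderiv i f) := by
  induction f using MvPolynomial.induction_on with
  | C r => simp
  | add u v hu hv => simp only [map_add] at hu hv ⊢; rw [hu, hv]
  | mul_X u j hu =>
    simp only [map_mul, Polynomial.derivative_mul, pderiv_mul, map_add, aeval_X, hu]
    rcases eq_or_ne j i with rfl | hj
    · simp
    · simp [hj, pderiv_X_of_ne hj]

/-- A nonsingular point modulo `p` lifts to `ℤ_p`. -/
theorem exists_padic_point {σ : Type*} [DecidableEq σ] (f : MvPolynomial σ ℤ) (p : ℕ) [Fact p.Prime]
    {x : σ → ZMod p} {i : σ} (hx : eval x (f.map (Int.castRingHom (ZMod p))) = 0)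
    (hi : eval x (pderiv i (f.map (Int.castRingHom (ZMod p)))) ≠ 0) :
    ∃ z : σ → ℤ_[p], aeval z f = 0 := by
  have hsurj : Function.Surjective (PadicInt.toZMod : ℤ_[p] →+* ZMod p) :=
    ZMod.ringHom_surjective _
  choose a ha using fun j => hsurj (x j)
  obtain ⟨F, hF⟩ : ∃ F : Polynomial ℤ_[p], F = MvPolynomial.aeval
      (fun j => if j = i then Polynomial.X else Polynomial.C (a j))
        (f.map (Int.castRingHom ℤ_[p])) := ⟨_, rfl⟩
  have hev : ∀ (u : MvPolynomial σ ℤ_[p]) (t : ℤ_[p]), (MvPolynomial.aeval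
      (fun j => if j = i then Polynomial.X else Polynomial.C (a j)) u : Polynomial ℤ_[p]).eval t =
        eval (Function.update a i t) u := fun u t => by
    induction u using MvPolynomial.induction_on with
    | C r => simp
    | add u v hu hv => simp only [map_add, Polynomial.eval_add, hu, hv]
    | mul_X u j hu =>
      simp only [map_mul, Polynomial.eval_mul, hu, aeval_X, eval_X]
      rcases eq_or_ne j i with rfl | hj
      · simp
      · simp [hj]
  have hred : ∀ u : MvPolynomial σ ℤ_[p],
      PadicInt.toZMod (eval a u) = eval x (u.map PadicInt.toZMod) := fun u => by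
    rw [eval_map, show eval a u = eval₂ (RingHom.id _) a u from rfl, eval₂_comp_left,
      RingHom.comp_id]
    congr 1
    exact funext ha
  have hmod : (f.map (Int.castRingHom ℤ_[p])).map PadicInt.toZMod =
      f.map (Int.castRingHom (ZMod p)) := by
    rw [map_map]
    exact congrArg (fun φ => map φ f) (RingHom.ext_int _ _)
  have hker : ∀ z : ℤ_[p], PadicInt.toZMod z = 0 ↔ ‖z‖ < 1 := fun z => by
    rw [← RingHom.mem_ker, PadicInt.ker_toZMod, IsLocalRing.mem_maximalIdeal, PadicInt.mem_nonunits]
  have hself : Function.update a i (a i) = a := Function.update_eq_self _ _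
  have h1 : ‖F.aeval (a i)‖ < 1 := by
    rw [Polynomial.coe_aeval_eq_eval, hF, hev, hself, ← hker, hred, hmod, hx]
  have h2 : ‖F.derivative.aeval (a i)‖ = 1 := by
    refine le_antisymm (PadicInt.norm_le_one _) (not_lt.1 ?_)
    rw [Polynomial.coe_aeval_eq_eval, hF, derivative_aeval_update, hev, hself, ← hker, hred,
      ← pderiv_map, hmod]
    exact hi
  obtain ⟨t, ht, -⟩ := hensels_lemma (F := F) (a := a i) (by rw [h2, one_pow]; exact h1)
  refine ⟨Function.update a i t, ?_⟩
  rw [Polynomial.coe_aeval_eq_eval, hF, hev] at ht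
  rw [← ht, eval_map, aeval_def]
  exact congrArg (fun φ => eval₂ φ (Function.update a i t) f) (RingHom.ext_int _ _)

/-- Reduction of the coefficients, in the form used for the counts. -/
theorem irreducible_zmod {σ : Type*} {f : MvPolynomial σ ℤ} {p : ℕ} [Fact p.Prime]
    (h : Irreducible (f.map (Int.castRingHom (AlgebraicClosure (ZMod p))))) :
    Irreducible ((f.map (Int.castRingHom (ZMod p))).map
      (algebraMap (ZMod p) (AlgebraicClosure (ZMod p)))) := by
  rw [map_map]
  convert h using 2
  exact congrArg _ (RingHom.ext_int _ _)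

/-- **Points modulo all large primes.** -/
theorem exists_count_mod {r : ℕ} (f : MvPolynomial (Fin (r + 1)) ℤ)
    (h : Irreducible (f.map (algebraMap ℤ (AlgebraicClosure ℚ)))) :
    ∃ p₀ : ℕ, ∀ p : ℕ, ∀ [Fact p.Prime], p₀ ≤ p →
      |(Nat.card {x : Fin (r + 1) → ZMod p //
          eval x (f.map (Int.castRingHom (ZMod p))) = 0} : ℝ) - (p : ℝ) ^ r| ≤
        countError f.totalDegree * (p : ℝ) ^ r / Real.sqrt p := by
  obtain ⟨p₀, hp₀⟩ := exists_irreducible_mod f h
  refine ⟨p₀, fun p hp hle => ?_⟩
  have := hp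
  have := abs_natCard_sub_le (k := ZMod p) (totalDegree_map_le (Int.castRingHom (ZMod p)) f)
    (irreducible_zmod (hp₀ p hle))
  rwa [Nat.card_zmod] at this

/-- **Local zeros at all large primes.** -/
theorem exists_padic_zero {r : ℕ} (f : MvPolynomial (Fin (r + 1)) ℤ)
    (h : Irreducible (f.map (algebraMap ℤ (AlgebraicClosure ℚ)))) :
    ∃ p₀ : ℕ, ∀ p : ℕ, ∀ [Fact p.Prime], p₀ ≤ p →
      ∃ z : Fin (r + 1) → ℤ_[p], aeval z f = 0 := by
  obtain ⟨p₀, hp₀⟩ := exists_irreducible_mod f h
  refine ⟨max p₀ (pointBound f.totalDegree f.totalDegree), fun p hp hle => ?_⟩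
  have := hp
  obtain ⟨x, i, hx, hi⟩ := exists_nonsingular_point (k := ZMod p)
    (totalDegree_map_le (Int.castRingHom (ZMod p)) f)
    (irreducible_zmod (hp₀ p (le_of_max_le_left hle)))
    (by rw [Nat.card_zmod]; exact le_of_max_le_right hle)
  exact exists_padic_point f p hx hi

end FA.LangWeilAll

end
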